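import Mathlib
set_option autoImplicit false
namespace Fermat.Agent.ProgramR.RR
open Polynomial

variable (k : Type*) [Field k]

/-- The ring of rational functions which are regular at infinity. -/
def Ainf : Subring (RatFunc k) where
  carrier := {r | r = 0 ∨ r.intDegree ≤ 0}
  zero_mem' := Or.inl rfl
  one_mem' := Or.inr (by rw [RatFunc.intDegree_one])
  add_mem' := by
    rintro x y hx hy
    by_cases hx0 : x = 0
    · rw [hx0, zero_add]; exact hy
    by_cases hy0 : y = 0
    · rw [hy0, add_zero]; exact hx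
    by_cases hxy : x + y = 0
    · exact Or.inl hxy
    right
    have hx' := hx.resolve_left hx0
    have hy' := hy.resolve_left hy0
    exact (RatFunc.intDegree_add_le hy0 hxy).trans (max_le hx' hy')
  mul_mem' := by
    rintro x y hx hy
    by_cases hx0 : x = 0
    · rw [hx0, zero_mul]; exact Or.inl rfl
    by_cases hy0 : y = 0
    · rw [hy0, mul_zero]; exact Or.inl rfl
    right
    have hx' := hx.resolve_left hx0
    have hy' := hy.resolve_left hy0
    rw [RatFunc.intDegree_mul hx0 hy0]
    omega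
  neg_mem' := by
    rintro x hx
    rcases hx with hx | hx
    · left; rw [hx, neg_zero]
    · right; rwa [RatFunc.intDegree_neg]

/-- Polynomials, as a subring of the rational functions. -/
noncomputable def Apoly : Subring (RatFunc k) := (algebraMap k[X] (RatFunc k)).range

variable {k}

theorem mem_Ainf_iff {r : RatFunc k} : r ∈ Ainf k ↔ r = 0 ∨ r.intDegree ≤ 0 := Iff.rfl

theorem mem_Ainf_of_ne_zero {r : RatFunc k} (hr : r ≠ 0) : r ∈ Ainf k ↔ r.intDegree ≤ 0 := by
  rw [mem_Ainf_iff]
  exact ⟨fun h => h.resolve_left hr, Or.inr⟩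

theorem mem_Apoly_iff {r : RatFunc k} : r ∈ Apoly k ↔ ∃ p : k[X], algebraMap k[X] (RatFunc k) p = r :=
  Iff.rfl

theorem algebraMap_mem_Apoly (p : k[X]) : algebraMap k[X] (RatFunc k) p ∈ Apoly k := ⟨p, rfl⟩

theorem intDegree_X_zpow (z : ℤ) : ((RatFunc.X : RatFunc k) ^ z).intDegree = z := by
  have hX : (RatFunc.X : RatFunc k) ≠ 0 := RatFunc.X_ne_zero
  have hnat : ∀ m : ℕ, ((RatFunc.X : RatFunc k) ^ m).intDegree = m := by
    intro m
    induction m with
    | zero => simp
    | succ m ih =>
      rw [pow_succ, RatFunc.intDegree_mul (pow_ne_zero _ hX) hX, ih, RatFunc.intDegree_X]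
      push_cast; ring
  cases z with
  | ofNat m => simpa using hnat m
  | negSucc m =>
    rw [zpow_negSucc, RatFunc.intDegree_inv, hnat]
    rfl

theorem X_zpow_ne_zero (z : ℤ) : (RatFunc.X : RatFunc k) ^ z ≠ 0 :=
  zpow_ne_zero _ RatFunc.X_ne_zero

theorem intDegree_algebraMap (p : k[X]) :
    (algebraMap k[X] (RatFunc k) p).intDegree = p.natDegree := RatFunc.intDegree_polynomial

theorem algebraMap_ne_zero {p : k[X]} (hp : p ≠ 0) : algebraMap k[X] (RatFunc k) p ≠ 0 := by
  rwa [Ne, map_eq_zero_iff _ (RatFunc.algebraMap_injective k)]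

theorem prod_X_zpow {ι : Type*} (s : Finset ι) (z : ι → ℤ) :
    ∏ i ∈ s, (RatFunc.X : RatFunc k) ^ z i = RatFunc.X ^ (∑ i ∈ s, z i) := by
  classical
  induction s using Finset.induction_on with
  | empty => simp
  | insert a s ha ih =>
    rw [Finset.prod_insert ha, Finset.sum_insert ha, ih, zpow_add₀ RatFunc.X_ne_zero]

/-- Nonzero elements of degree `0` are units of `Ainf`. -/
theorem inv_mem_Ainf {r : RatFunc k} (h : r.intDegree = 0) : r⁻¹ ∈ Ainf k := by
  right
  rw [RatFunc.intDegree_inv, h, neg_zero]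

theorem intDegree_mul_le {x y : RatFunc k} (hx : x ≠ 0) (hy : y ≠ 0) :
    (x * y).intDegree = x.intDegree + y.intDegree := RatFunc.intDegree_mul hx hy

end Fermat.Agent.ProgramR.RR
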