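import Mathlib
import Fermat.Agent.ProgramR.Alg.TraceDual
set_option autoImplicit false
set_option linter.unusedSectionVars false
/-!
Program R / R2b (helper7): the number of prime factors of the different of a tamely ramified
extension `B / A` with trivial residue field extensions:
`Ω(𝔇) = ∑ᶠ p, (n - #{primes of B over p})`.
-/
namespace Fermat.Agent.ProgramR.RR
open Module UniqueFactorizationMonoid IsDedekindDomain

attribute [local instance] FractionRing.liftAlgebra FractionRing.isScalarTower_liftAlgebra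

section

variable (A K L B : Type*) [CommRing A] [IsDedekindDomain A] [Field K]
  [CommRing B] [Field L]
  [Algebra A K] [Algebra B L] [Algebra A B] [Algebra K L] [Algebra A L]
  [IsScalarTower A K L] [IsScalarTower A B L]
  [IsDedekindDomain B] [IsFractionRing A K] [IsFractionRing B L]
  [IsTorsionFree A B] [Module.Finite A B] [FiniteDimensional K L] [Algebra.IsSeparable K L]

include K L in
/-- exact exponent of the different at a tame prime: `v_q(𝔇) = e(q) - 1`. -/
theorem count_different_add_one (p : Ideal A) [p.IsMaximal] (hp0 : p ≠ ⊥) [CharZero (A ⧸ p)]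
    (q : Ideal B) [hq : q.IsPrime] [q.LiesOver p] :
    Multiset.count q (normalizedFactors (differentIdeal A B)) + 1 = q.ramificationIdx A := by
  classical
  have hsep : Algebra.IsSeparable (FractionRing A) (FractionRing B) :=
    Alg.isSeparable_fractionRing_aux A K L B
  have hpB : p.map (algebraMap A B) ≠ ⊥ := Ideal.map_ne_bot_of_ne_bot hp0
  have hq0 : q ≠ ⊥ :=
    ne_bot_of_le_ne_bot hpB (Ideal.map_le_of_le_comap (q.over_def p).le)
  have hqmax : q.IsMaximal := hq.isMaximal hq0
  have he : q.ramificationIdx A = Multiset.count q (normalizedFactors (p.map (algebraMap A B))) :=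
    Ideal.IsDedekindDomain.ramificationIdx_eq_normalizedFactors_count p q hpB
  obtain ⟨Q, hqQ, h⟩ := Ideal.eq_prime_pow_mul_coprime hpB q
  rw [← he] at h
  have hepos : 0 < q.ramificationIdx A := Ideal.ramificationIdx_pos q A
  have h1 : q ^ (q.ramificationIdx A - 1) ∣ differentIdeal A B :=
    pow_sub_one_dvd_differentIdeal A q (q.ramificationIdx A) hp0 ⟨Q, h⟩
  have hcop : IsCoprime (q ^ q.ramificationIdx A) Q :=
    ((Ideal.isCoprime_iff_sup_eq).mpr hqQ).pow_left
  have hne_top : q ^ q.ramificationIdx A ≠ ⊤ := by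
    intro htop
    have h1 : (1 : B) ∈ q ^ q.ramificationIdx A := by rw [htop]; trivial
    have := Ideal.pow_le_self (I := q) hepos.ne' h1
    exact hqmax.ne_top ((Ideal.eq_top_iff_one _).mpr this)
  have h2 : ¬ q ^ q.ramificationIdx A ∣ differentIdeal A B :=
    Alg.not_dvd_differentIdeal_of_isCoprime_of_charZero A (q ^ q.ramificationIdx A) Q hne_top hcop
      h.symm
  have hirr : Irreducible q := (Ideal.prime_of_isPrime hq0 hq).irreducible
  have := count_normalizedFactors_eq (x := differentIdeal A B) hirr (normalize_eq q) h1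
    (by rwa [Nat.sub_add_cancel hepos])
  omega

include K L in
/-- local count: `∑_{q | p} v_q(𝔇) + #{q | p} = n` (tame, trivial residue extensions). -/
theorem sum_count_different_add_card (p : Ideal A) [p.IsMaximal] (hp0 : p ≠ ⊥) [CharZero (A ⧸ p)]
    (hres : ∀ P : Ideal B, P.IsMaximal → Function.Surjective (algebraMap A (B ⧸ P))) :
    ∑ q : p.primesOver B, Multiset.count q.1 (normalizedFactors (differentIdeal A B))
      + Fintype.card (p.primesOver B) = finrank K L := by
  classical
  have h := Ideal.sum_ramification_inertia_eq_finrank p B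
  rw [← IsFractionRing.finrank_eq A K B L] at h
  rw [← h, Fintype.card_eq_sum_ones, ← Finset.sum_add_distrib]
  refine Finset.sum_congr rfl fun q _ => ?_
  have hqmax : q.1.IsMaximal := inferInstance
  rw [count_different_add_one A K L B p hp0 q.1]
  have hf : q.1.inertiaDeg A = 1 := by
    rw [Ideal.inertiaDeg_eq_of_isMaximal p q.1]
    let _ : Field (A ⧸ p) := Ideal.Quotient.field p
    let _ : Field (B ⧸ q.1) := Ideal.Quotient.field q.1
    rw [finrank_eq_one_iff_of_nonzero' (1 : B ⧸ q.1) one_ne_zero]
    intro w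
    obtain ⟨a, ha⟩ := hres q.1 hqmax w
    refine ⟨Ideal.Quotient.mk p a, ?_⟩
    rw [Algebra.smul_def, mul_one, Ideal.Quotient.algebraMap_mk_of_liesOver, ← ha]
    rfl
  rw [hf, mul_one]

include K L in
/-- the local count in `ℤ`-form. -/
theorem sum_count_different_eq_sub (p : Ideal A) [p.IsMaximal] (hp0 : p ≠ ⊥) [CharZero (A ⧸ p)]
    (hres : ∀ P : Ideal B, P.IsMaximal → Function.Surjective (algebraMap A (B ⧸ P))) :
    ((∑ q : p.primesOver B, Multiset.count q.1 (normalizedFactors (differentIdeal A B)) : ℕ) : ℤ)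
      = (finrank K L : ℤ) - Nat.card (p.primesOver B) := by
  have := sum_count_different_add_card A K L B p hp0 hres
  rw [Nat.card_eq_fintype_card]
  omega

include K L in
/-- **global count**: the number of prime factors of the different (with multiplicity). -/
theorem card_factors_different_eq_finsum
    (hchar : ∀ p : Ideal A, p.IsMaximal → CharZero (A ⧸ p))
    (hres : ∀ P : Ideal B, P.IsMaximal → Function.Surjective (algebraMap A (B ⧸ P))) :
    (Multiset.card (normalizedFactors (differentIdeal A B)) : ℤ)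
      = ∑ᶠ p : HeightOneSpectrum A,
          ((finrank K L : ℤ) - Nat.card (p.asIdeal.primesOver B)) := by
  classical
  set D := differentIdeal A B with hD
  set T : Finset (Ideal B) := (normalizedFactors D).toFinset with hT
  have hTprime : ∀ Q ∈ T, Q.IsPrime ∧ Q ≠ ⊥ := by
    intro Q hQ
    have hQ' := Multiset.mem_toFinset.mp hQ
    have := prime_of_normalized_factor Q hQ'
    exact ⟨Ideal.isPrime_of_prime this, this.ne_zero⟩
  let φ : Ideal B → Ideal A := fun Q => Q.under A
  set t₀ : Finset (Ideal A) := T.image φ with ht₀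
  let c : Ideal B → ℕ := fun Q => Multiset.count Q (normalizedFactors D)
  let G₀ : Ideal A → ℤ := fun q => (finrank K L : ℤ) - Nat.card (q.primesOver B)
  -- properties of elements of `t₀`
  have ht₀prime : ∀ q ∈ t₀, q.IsMaximal ∧ q ≠ ⊥ := by
    intro q hq
    obtain ⟨Q, hQT, rfl⟩ := Finset.mem_image.mp hq
    obtain ⟨hQp, hQ0⟩ := hTprime Q hQT
    have h0 : Q.under A ≠ ⊥ := mt Ideal.eq_bot_of_comap_eq_bot hQ0
    have hp : (Q.under A).IsPrime := Ideal.IsPrime.under A Q
    exact ⟨hp.isMaximal h0, h0⟩
  -- the local formula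
  have hlocal : ∀ q : Ideal A, q.IsMaximal → q ≠ ⊥ →
      ((∑ Q ∈ T with φ Q = q, c Q : ℕ) : ℤ) = G₀ q := by
    intro q hqmax hq0
    have := hqmax
    have := hchar q hqmax
    show ((∑ Q ∈ T with φ Q = q, c Q : ℕ) : ℤ) = (finrank K L : ℤ) - Nat.card (q.primesOver B)
    rw [← sum_count_different_eq_sub A K L B q hq0 hres]
    congr 1
    have hcoe : ∑ Q' : ↥(q.primesOver B), c Q'.1 = ∑ Q ∈ (q.primesOver B).toFinset, c Q :=
      Finset.sum_set_coe (q.primesOver B)
    show ∑ Q ∈ T with φ Q = q, c Q = ∑ Q' : ↥(q.primesOver B), c Q'.1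
    rw [hcoe]
    apply Finset.sum_subset
    · intro Q hQ
      rw [Finset.mem_filter] at hQ
      rw [Set.mem_toFinset]
      exact ⟨(hTprime Q hQ.1).1, ⟨hQ.2.symm⟩⟩
    · intro Q hQ hQn
      rw [Set.mem_toFinset] at hQ
      rw [Finset.mem_filter, not_and_or] at hQn
      rcases hQn with h | h
      · exact Multiset.count_eq_zero.mpr (fun hmem => h (Multiset.mem_toFinset.mpr hmem))
      · exact absurd (hQ.2.over).symm h
  -- fiberwise decomposition
  have e1 : (Multiset.card (normalizedFactors D) : ℤ) = ∑ q ∈ t₀, G₀ q := by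
    rw [← Multiset.toFinset_sum_count_eq (normalizedFactors D),
      ← Finset.sum_fiberwise_of_maps_to (s := T) (t := t₀) (g := φ)
        (fun Q hQ => Finset.mem_image_of_mem φ hQ)]
    push_cast
    refine Finset.sum_congr rfl fun q hq => ?_
    have := hlocal q (ht₀prime q hq).1 (ht₀prime q hq).2
    push_cast at this
    exact this
  rw [e1]
  have e2 : ∑ᶠ p : HeightOneSpectrum A, ((finrank K L : ℤ) - Nat.card (p.asIdeal.primesOver B))
      = ∑ᶠ q ∈ Set.range (HeightOneSpectrum.asIdeal (R := A)), G₀ q := by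
    rw [finsum_mem_range (fun p p' h => HeightOneSpectrum.ext h)]
  rw [e2]
  symm
  apply finsum_mem_eq_sum_of_inter_support_eq
  ext q
  simp only [Set.mem_inter_iff, Set.mem_range, Function.mem_support, Finset.mem_coe]
  constructor
  · rintro ⟨⟨p, rfl⟩, hne⟩
    refine ⟨?_, hne⟩
    have hpmax : p.asIdeal.IsMaximal := p.isMaximal
    have := hlocal p.asIdeal hpmax p.ne_bot
    rw [← this] at hne
    have hne' : (∑ Q ∈ T with φ Q = p.asIdeal, c Q) ≠ 0 := by exact_mod_cast hne
    obtain ⟨Q, hQ, -⟩ := Finset.exists_ne_zero_of_sum_ne_zero hne'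
    rw [Finset.mem_filter] at hQ
    exact Finset.mem_image.mpr ⟨Q, hQ.1, hQ.2⟩
  · rintro ⟨hq, hne⟩
    obtain ⟨hqmax, hq0⟩ := ht₀prime q hq
    exact ⟨⟨⟨q, hqmax.isPrime, hq0⟩, rfl⟩, hne⟩

end
end Fermat.Agent.ProgramR.RR
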