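import Mathlib
set_option autoImplicit false
set_option linter.unusedSectionVars false
/-!
Program R / R2b (helper7): relative length of fractional ideals of a Dedekind domain `B`
(as modules over a base ring `A`), and `length_A (B ⧸ I) = number of prime factors of I`
when all residue field extensions are trivial.
-/
namespace Fermat.Agent.ProgramR.RR
open Module nonZeroDivisors UniqueFactorizationMonoid

section additivity

variable (A : Type*) {R V : Type*} [CommRing A] [CommRing R] [AddCommGroup V] [Module R V]
  [Algebra A R] [Module A V] [IsScalarTower A R V]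

/-- additivity of lengths in a chain `J ≤ I ≤ H` of submodules. -/
theorem length_chain {J I H : Submodule R V} (hJI : J ≤ I) (hIH : I ≤ H) :
    Module.length A (↥H ⧸ J.comap H.subtype)
      = Module.length A (↥I ⧸ J.comap I.subtype) + Module.length A (↥H ⧸ I.comap H.subtype) := by
  let f : (↥I ⧸ J.comap I.subtype) →ₗ[R] (↥H ⧸ J.comap H.subtype) :=
    Submodule.mapQ _ _ (Submodule.inclusion hIH) (fun x hx => hx)
  let g : (↥H ⧸ J.comap H.subtype) →ₗ[R] (↥H ⧸ I.comap H.subtype) :=
    Submodule.factor (Submodule.comap_mono hJI)
  have hf : Function.Injective f := by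
    rw [← LinearMap.ker_eq_bot, LinearMap.ker_eq_bot']
    intro x
    induction x using Submodule.Quotient.induction_on with
    | H x =>
      intro hx
      rw [Submodule.mapQ_apply, Submodule.Quotient.mk_eq_zero] at hx
      rw [Submodule.Quotient.mk_eq_zero]
      exact hx
  have hg : Function.Surjective g := by
    intro y
    induction y using Submodule.Quotient.induction_on with
    | H y => exact ⟨Submodule.Quotient.mk y, rfl⟩
  have hex : Function.Exact f g := by
    intro y
    induction y using Submodule.Quotient.induction_on with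
    | H y =>
      constructor
      · intro hy
        have hy' : (Submodule.Quotient.mk y : ↥H ⧸ I.comap H.subtype) = 0 := hy
        rw [Submodule.Quotient.mk_eq_zero] at hy'
        exact ⟨Submodule.Quotient.mk ⟨(y : V), hy'⟩, rfl⟩
      · rintro ⟨x, hx⟩
        induction x using Submodule.Quotient.induction_on with
        | H x =>
          rw [← hx]
          show (Submodule.Quotient.mk (Submodule.inclusion hIH x) : ↥H ⧸ I.comap H.subtype) = 0
          rw [Submodule.Quotient.mk_eq_zero]
          exact x.2
  exact Module.length_eq_add_of_exact (f.restrictScalars A) (g.restrictScalars A) hf hg hex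

end additivity

section dedekind

variable (A : Type*) {B : Type*} (L : Type*) [CommRing A] [CommRing B] [IsDedekindDomain B]
  [Field L] [Algebra B L] [IsFractionRing B L] [Algebra A B] [Module A L] [IsScalarTower A B L]

/-- relative `A`-length of fractional ideals `J ≤ I`. -/
noncomputable def relLength (I J : FractionalIdeal B⁰ L) : ℕ∞ :=
  Module.length A (↥(I : Submodule B L) ⧸ (J : Submodule B L).comap (I : Submodule B L).subtype)

variable {L}

theorem relLength_eq_of_mul_eq (I J I' J' : FractionalIdeal B⁰ L) (H : I * J' = I' * J)
    (h : J ≤ I) (h' : J' ≤ I') (hJ' : J' ≠ 0) (hI : I ≠ 0) :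
    relLength A L I J = relLength A L I' J' :=
  ((FractionalIdeal.quotientEquiv I J I' J' H h h' hJ' hI).restrictScalars A).length_eq

theorem relLength_chain {J I H : FractionalIdeal B⁰ L} (hJI : J ≤ I) (hIH : I ≤ H) :
    relLength A L H J = relLength A L I J + relLength A L H I :=
  length_chain A (R := B) (V := L) (J := (J : Submodule B L)) (I := (I : Submodule B L))
    (H := (H : Submodule B L)) (FractionalIdeal.coe_le_coe.mpr hJI)
    (FractionalIdeal.coe_le_coe.mpr hIH)

/-- the identification `B ≃ 1 ⊆ L`. -/
noncomputable def oneEquiv : B ≃ₗ[B] ↥((1 : FractionalIdeal B⁰ L) : Submodule B L) :=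
  LinearEquiv.ofBijective
    ((Algebra.linearMap B L).codRestrict _ (fun b => by
      rw [FractionalIdeal.mem_coe, FractionalIdeal.mem_one_iff]; exact ⟨b, rfl⟩))
    ⟨fun x y hxy => IsFractionRing.injective B L (congrArg Subtype.val hxy),
      fun y => by
        obtain ⟨b, hb⟩ := (FractionalIdeal.mem_one_iff _).mp ((FractionalIdeal.mem_coe).mp y.2)
        exact ⟨b, Subtype.ext hb⟩⟩

theorem oneEquiv_apply (b : B) : ((oneEquiv (L := L) b : ↥((1 : FractionalIdeal B⁰ L) :
    Submodule B L)) : L) = algebraMap B L b := rfl

theorem relLength_one_coeIdeal (I : Ideal B) :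
    relLength A L 1 (I : FractionalIdeal B⁰ L) = Module.length A (B ⧸ I) := by
  have hmap : Submodule.map ((oneEquiv (B := B) (L := L)).toLinearMap) I =
      ((I : FractionalIdeal B⁰ L) : Submodule B L).comap
        ((1 : FractionalIdeal B⁰ L) : Submodule B L).subtype := by
    ext y
    rw [Submodule.mem_map, Submodule.mem_comap, Submodule.subtype_apply, FractionalIdeal.mem_coe,
      FractionalIdeal.mem_coeIdeal]
    constructor
    · rintro ⟨b, hb, rfl⟩
      exact ⟨b, hb, rfl⟩
    · rintro ⟨b, hb, hby⟩
      exact ⟨b, hb, Subtype.ext hby⟩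
  exact ((Submodule.Quotient.equiv I _ (oneEquiv (L := L)) hmap).restrictScalars A).length_eq.symm

variable {A}

/-- **length of `B ⧸ I`** when all residue fields of `B` are quotients of `A`. -/
theorem length_quotient_eq_card_factors
    (hres : ∀ P : Ideal B, P.IsMaximal → Function.Surjective (algebraMap A (B ⧸ P)))
    (I : Ideal B) (hI : I ≠ ⊥) :
    Module.length A (B ⧸ I) = Multiset.card (normalizedFactors I) := by
  classical
  rw [← relLength_one_coeIdeal A (L := FractionRing B)]
  induction I using UniqueFactorizationMonoid.induction_on_prime with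
  | h₁ => exact absurd rfl hI
  | h₂ I hIu =>
    have : I = ⊤ := by rwa [Ideal.isUnit_iff] at hIu
    subst this
    rw [relLength_one_coeIdeal, ← Ideal.one_eq_top, normalizedFactors_one, Multiset.card_zero,
      Nat.cast_zero, Module.length_eq_zero_iff, Ideal.one_eq_top]
    exact Ideal.Quotient.subsingleton_iff.mpr rfl
  | h₃ I P hI0 hP ih =>
    have hI0' : I ≠ ⊥ := hI0
    have hP0 : P ≠ ⊥ := hP.ne_zero
    have hPprime : P.IsPrime := Ideal.isPrime_of_prime hP
    have hPmax : P.IsMaximal := hPprime.isMaximal hP0
    have hle1 : ((P * I : Ideal B) : FractionalIdeal B⁰ (FractionRing B)) ≤ (P : FractionalIdeal B⁰ (FractionRing B)) :=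
      (FractionalIdeal.coeIdeal_le_coeIdeal _).mpr Ideal.mul_le_left
    have hle2 : (P : FractionalIdeal B⁰ (FractionRing B)) ≤ 1 := FractionalIdeal.coeIdeal_le_one
    rw [relLength_chain A hle1 hle2]
    have e1 : relLength A (FractionRing B) (P : FractionalIdeal B⁰ (FractionRing B)) ((P * I : Ideal B) : FractionalIdeal B⁰ (FractionRing B))
        = relLength A (FractionRing B) 1 (I : FractionalIdeal B⁰ (FractionRing B)) := by
      apply relLength_eq_of_mul_eq
      · rw [one_mul, FractionalIdeal.coeIdeal_mul]
      · exact hle1
      · exact FractionalIdeal.coeIdeal_le_one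
      · simpa using hI0'
      · simpa using hP0
    rw [e1, ih hI0', relLength_one_coeIdeal]
    have e2 : Module.length A (B ⧸ P) = 1 := by
      rw [Module.length_eq_of_surjective (S := A) (R := B ⧸ P) (M := B ⧸ P) (hres P hPmax)]
      let _ := Ideal.Quotient.field P
      rw [Module.length_eq_finrank, Module.finrank_self, Nat.cast_one]
    rw [e2, normalizedFactors_mul hP0 hI0', normalizedFactors_irreducible hP.irreducible,
      normalize_eq, Multiset.singleton_add, Multiset.card_cons]
    push_cast
    ring

end dedekind

end Fermat.Agent.ProgramR.RR
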