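import Mathlib
set_option autoImplicit false
/-!
Program R / R2b (helper7): the index of a full-rank submodule of a free module over a PID,
via Smith normal form: `M ⧸ N ≃ Π i, A ⧸ (a i)` with `∏ a i` associated to the determinant of a
basis of `N` expressed in a basis of `M`.
-/
namespace Fermat.Agent.ProgramR.RR
open Module

section
variable {A : Type*} [CommRing A] [IsDomain A] [IsPrincipalIdealRing A]
variable {M : Type*} [AddCommGroup M] [Module A M]
variable {ι : Type*} [Fintype ι] [DecidableEq ι]

theorem exists_smith_quotient (b : Basis ι A M) (N : Submodule A M) (bN : Basis ι A N) :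
    ∃ a : ι → A, (∀ i, a i ≠ 0) ∧
      Associated (b.toMatrix (fun i => (bN i : M))).det (∏ i, a i) ∧
      Nonempty ((M ⧸ N) ≃ₗ[A] Π i, A ⧸ Ideal.span {a i}) := by
  have h : finrank A N = finrank A M := by
    rw [finrank_eq_card_basis b, finrank_eq_card_basis bN]
  refine ⟨N.smithNormalFormCoeffs b h, N.smithNormalFormCoeffs_ne_zero b h, ?_,
    ⟨N.quotientEquivPiSpan b h⟩⟩
  set a := N.smithNormalFormCoeffs b h with ha
  set b' := N.smithNormalFormTopBasis b h with hb'
  set ab := N.smithNormalFormBotBasis b h with hab'
  have hab : ∀ i, (ab i : M) = a i • b' i := N.smithNormalFormBotBasis_def b h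
  have h1 : b'.toMatrix (fun i => (bN i : M)) = Matrix.diagonal a * ab.toMatrix bN := by
    ext i j
    rw [Matrix.diagonal_mul, Basis.toMatrix_apply, Basis.toMatrix_apply]
    have h2 : (bN j : M) = ∑ l, ab.repr (bN j) l • (a l • b' l) := by
      conv_lhs => rw [← ab.sum_repr (bN j)]
      rw [Submodule.coe_sum]
      refine Finset.sum_congr rfl fun l _ => ?_
      rw [Submodule.coe_smul, hab]
    rw [h2, map_sum, Finsupp.coe_finsetSum, Finset.sum_apply]
    simp only [map_smul, Basis.repr_self, Finsupp.smul_apply, Finsupp.single_apply, smul_eq_mul]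
    rw [Finset.sum_eq_single i]
    · simp [mul_comm]
    · intro l _ hl
      simp [hl]
    · intro hi; exact absurd (Finset.mem_univ i) hi
  have h3 : b.toMatrix (fun i => (bN i : M))
      = b.toMatrix b' * (Matrix.diagonal a * ab.toMatrix bN) := by
    rw [← h1, Basis.toMatrix_mul_toMatrix]
  rw [h3, Matrix.det_mul, Matrix.det_mul, Matrix.det_diagonal]
  have u1 : IsUnit (b.toMatrix b').det := by
    rw [← Basis.det_apply]; exact Basis.isUnit_det b b'
  have u2 : IsUnit (ab.toMatrix bN).det := by
    rw [← Basis.det_apply]; exact Basis.isUnit_det ab bN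
  exact (associated_isUnit_mul_left_iff u1).mpr ((associated_mul_isUnit_left_iff u2).mpr
    (Associated.refl _))

/-- variant with a spanning linearly independent family instead of a basis of `N`. -/
theorem exists_smith_quotient' (b : Basis ι A M) (N : Submodule A M) (w : ι → M)
    (hli : LinearIndependent A w) (hsp : Submodule.span A (Set.range w) = N) :
    ∃ a : ι → A, (∀ i, a i ≠ 0) ∧
      Associated (b.toMatrix w).det (∏ i, a i) ∧
      Nonempty ((M ⧸ N) ≃ₗ[A] Π i, A ⧸ Ideal.span {a i}) := by
  subst hsp
  have := exists_smith_quotient b _ (Basis.span hli)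
  simpa only [Basis.span_apply] using this

end
end Fermat.Agent.ProgramR.RR
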