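import Mathlib
import Fermat.Agent.ProgramR.RR.Index
import Fermat.Agent.ProgramR.RR.FracLength
import Fermat.Agent.ProgramR.Alg.TraceDual
set_option autoImplicit false
set_option linter.unusedSectionVars false
/-!
Program R / R2b (helper7): **discriminant = norm of the different**, in the form
"number of prime factors of `disc` = number of prime factors of the different ideal"
(valid when all residue field extensions are trivial), for `B / A` with `A` a PID.
-/
namespace Fermat.Agent.ProgramR.RR
open Module nonZeroDivisors UniqueFactorizationMonoid

section basis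

variable (A : Type*) {K L B : Type*} [CommRing A] [Field K] [CommRing B] [Field L]
  [Algebra A K] [Algebra B L] [Algebra A B] [Algebra K L] [Algebra A L]
  [IsScalarTower A K L] [IsScalarTower A B L] [IsFractionRing A K]
  {ι : Type*} [Fintype ι]

theorem linearIndependent_restrict (w : Basis ι K L) : LinearIndependent A (w : ι → L) := by
  refine w.linearIndependent.restrict_scalars (R := A) ?_
  intro x y hxy
  apply IsFractionRing.injective A K
  simpa [Algebra.smul_def] using hxy

/-- an `A`-basis of a `B`-submodule `S ⊆ L` which is the `A`-span of a `K`-basis `w` of `L`. -/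
noncomputable def basisOfSpanEq (w : Basis ι K L) (S : Submodule B L)
    (hS : S.restrictScalars A = Submodule.span A (Set.range w)) : Basis ι A ↥S :=
  Basis.mk (v := fun i => (⟨w i, by
      rw [← Submodule.restrictScalars_mem A, hS]; exact Submodule.subset_span ⟨i, rfl⟩⟩ : ↥S))
    (by
      apply LinearIndependent.of_comp (S.subtype.restrictScalars A)
      exact linearIndependent_restrict A w)
    (by
      rintro x -
      have hx : (x : L) ∈ Submodule.span A (Set.range w) := by
        rw [← hS]; exact x.2
      have hmap : Submodule.map (S.subtype.restrictScalars A) (Submodule.span A (Set.range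
          (fun i => (⟨w i, by
            rw [← Submodule.restrictScalars_mem A, hS]; exact Submodule.subset_span ⟨i, rfl⟩⟩ : ↥S))))
          = Submodule.span A (Set.range w) := by
        rw [Submodule.map_span, ← Set.range_comp]
        rfl
      rw [← hmap] at hx
      obtain ⟨y, hy, hyx⟩ := hx
      have : y = x := Subtype.ext hyx
      rwa [← this])

theorem basisOfSpanEq_apply (w : Basis ι K L) (S : Submodule B L)
    (hS : S.restrictScalars A = Submodule.span A (Set.range w)) (i : ι) :
    ((basisOfSpanEq A w S hS i : ↥S) : L) = w i := by
  rw [basisOfSpanEq, Basis.mk_apply]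

theorem algebraMap_basisOfSpanEq_repr (w : Basis ι K L) (S : Submodule B L)
    (hS : S.restrictScalars A = Submodule.span A (Set.range w)) (x : ↥S) (i : ι) :
    algebraMap A K ((basisOfSpanEq A w S hS).repr x i) = w.repr (x : L) i := by
  have h1 : (x : L) = ∑ j, (basisOfSpanEq A w S hS).repr x j • w j := by
    conv_lhs => rw [← (basisOfSpanEq A w S hS).sum_repr x]
    rw [Submodule.coe_sum]
    refine Finset.sum_congr rfl fun j _ => ?_
    rw [Submodule.coe_smul_of_tower, basisOfSpanEq_apply]
  conv_rhs => rw [h1]
  rw [map_sum, Finsupp.coe_finsetSum, Finset.sum_apply]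
  rw [Finset.sum_eq_single i]
  · rw [← algebraMap_smul K, map_smul, Basis.repr_self, Finsupp.smul_apply,
      Finsupp.single_eq_same, smul_eq_mul, mul_one]
  · intro j _ hj
    rw [← algebraMap_smul K, map_smul, Basis.repr_self, Finsupp.smul_apply,
      Finsupp.single_eq_of_ne hj.symm, smul_zero]
  · intro hi; exact absurd (Finset.mem_univ i) hi

end basis

section main

attribute [local instance] FractionRing.liftAlgebra FractionRing.isScalarTower_liftAlgebra

variable (A K L B : Type*) [CommRing A] [IsDomain A] [IsPrincipalIdealRing A] [Field K]
  [CommRing B] [Field L]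
  [Algebra A K] [Algebra B L] [Algebra A B] [Algebra K L] [Algebra A L]
  [IsScalarTower A K L] [IsScalarTower A B L]
  [IsDedekindDomain B] [IsFractionRing A K] [IsFractionRing B L]
  [IsTorsionFree A B] [Module.Finite A B] [FiniteDimensional K L] [Algebra.IsSeparable K L]
  {ι : Type*} [Fintype ι] [DecidableEq ι]

/-- length of a cyclic torsion module over a PID -/
theorem length_quotient_span_singleton {a : A} (ha : a ≠ 0) :
    Module.length A (A ⧸ Ideal.span {a}) = Multiset.card (normalizedFactors (Ideal.span {a})) :=
  length_quotient_eq_card_factors (A := A) (B := A)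
    (fun P _ => Ideal.Quotient.mk_surjective) _ (by simpa using ha)

theorem card_factors_prod_span (a : ι → A) (ha0 : ∀ i, a i ≠ 0) :
    Multiset.card (normalizedFactors (Ideal.span {∏ i, a i}))
      = ∑ i, Multiset.card (normalizedFactors (Ideal.span {a i})) := by
  classical
  rw [← Ideal.prod_span_singleton]
  have key : ∀ s : Finset ι, Multiset.card (normalizedFactors (∏ i ∈ s, Ideal.span {a i}))
      = ∑ i ∈ s, Multiset.card (normalizedFactors (Ideal.span {a i})) := by
    intro s
    induction s using Finset.induction_on with
    | empty => rw [Finset.prod_empty, Finset.sum_empty, normalizedFactors_one, Multiset.card_zero]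
    | insert i s his ih =>
      rw [Finset.prod_insert his, Finset.sum_insert his, normalizedFactors_mul, Multiset.card_add,
        ih]
      · simpa using ha0 i
      · rw [Finset.prod_ne_zero_iff]
        intro j _
        simpa using ha0 j
  exact key Finset.univ

/-- **Discriminant = norm of the different** (counting prime factors with multiplicity), when
all residue fields of `B` are quotients of `A`. -/
theorem exists_card_factors_discr_eq (u : Basis ι K L)
    (hu : Submodule.span A (Set.range u) = (1 : Submodule B L).restrictScalars A)
    (hres : ∀ P : Ideal B, P.IsMaximal → Function.Surjective (algebraMap A (B ⧸ P))) :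
    ∃ d : A, algebraMap A K d = Algebra.discr K u ∧
    Multiset.card (normalizedFactors (Ideal.span {d})) =
      Multiset.card (normalizedFactors (differentIdeal A B)) := by
  classical
  have hsep : Algebra.IsSeparable (FractionRing A) (FractionRing B) :=
    Alg.isSeparable_fractionRing_aux A K L B
  have hD0 : differentIdeal A B ≠ ⊥ := differentIdeal_ne_bot
  have hD0' : ((differentIdeal A B : Ideal B) : FractionalIdeal B⁰ L) ≠ 0 := by simpa using hD0
  have hdual0 : FractionalIdeal.dual A K (1 : FractionalIdeal B⁰ L) ≠ 0 :=
    FractionalIdeal.dual_ne_zero A K one_ne_zero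
  -- the `B`-side
  have e1 : relLength A L (FractionalIdeal.dual A K (1 : FractionalIdeal B⁰ L)) 1
      = Multiset.card (normalizedFactors (differentIdeal A B)) := by
    rw [relLength_eq_of_mul_eq A (FractionalIdeal.dual A K (1 : FractionalIdeal B⁰ L)) 1 1
      ((differentIdeal A B : Ideal B) : FractionalIdeal B⁰ L) ?_
      (FractionalIdeal.one_le_dual_one A K) FractionalIdeal.coeIdeal_le_one hD0' hdual0,
      relLength_one_coeIdeal, length_quotient_eq_card_factors hres _ hD0]
    rw [coeIdeal_differentIdeal A K L B, mul_inv_cancel₀ hdual0, one_mul]
  -- the `A`-side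
  set D : Submodule B L :=
    ((FractionalIdeal.dual A K (1 : FractionalIdeal B⁰ L) : FractionalIdeal B⁰ L) : Submodule B L)
    with hDdef
  have hDspan : D.restrictScalars A = Submodule.span A (Set.range u.traceDual) := by
    rw [hDdef, FractionalIdeal.coe_dual_one]
    exact Submodule.traceDual_span_of_basis A (1 : Submodule B L) u hu.symm
  let b : Basis ι A ↥D := basisOfSpanEq A u.traceDual D hDspan
  have hone_le : ((1 : FractionalIdeal B⁰ L) : Submodule B L) ≤ D :=
    FractionalIdeal.coe_le_coe.mpr (FractionalIdeal.one_le_dual_one A K)
  have humem : ∀ i, u i ∈ ((1 : FractionalIdeal B⁰ L) : Submodule B L) := by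
    intro i
    rw [FractionalIdeal.coe_one, ← Submodule.restrictScalars_mem A, ← hu]
    exact Submodule.subset_span ⟨i, rfl⟩
  let w : ι → ↥D := fun i => ⟨u i, hone_le (humem i)⟩
  let X : Submodule B ↥D := ((1 : FractionalIdeal B⁰ L) : Submodule B L).comap D.subtype
  have hwli : LinearIndependent A w := by
    apply LinearIndependent.of_comp (D.subtype.restrictScalars A)
    exact linearIndependent_restrict A u
  have hwsp : Submodule.span A (Set.range w) = X.restrictScalars A := by
    have hinj : Function.Injective (D.subtype.restrictScalars A) := Subtype.val_injective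
    rw [← Submodule.comap_map_eq_of_injective hinj (Submodule.span A (Set.range w)),
      Submodule.map_span, ← Set.range_comp]
    have : (⇑(D.subtype.restrictScalars A) ∘ w) = u := rfl
    rw [this, hu]
    ext y
    simp only [Submodule.mem_comap, Submodule.restrictScalars_mem, X, FractionalIdeal.coe_one]
    rfl
  obtain ⟨a, ha0, hassoc, ⟨e⟩⟩ := exists_smith_quotient' b (X.restrictScalars A) w hwli hwsp
  have e2 : relLength A L (FractionalIdeal.dual A K (1 : FractionalIdeal B⁰ L)) 1
      = ∑ i, Module.length A (A ⧸ Ideal.span {a i}) := by
    unfold relLength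
    rw [← (Submodule.Quotient.restrictScalarsEquiv A X).length_eq, e.length_eq,
      Module.length_pi_of_fintype]
  have hdet : algebraMap A K (b.toMatrix w).det = Algebra.discr K u := by
    rw [RingHom.map_det, Algebra.discr_def]
    congr 1
    ext i j
    rw [RingHom.mapMatrix_apply, Matrix.map_apply, Basis.toMatrix_apply,
      algebraMap_basisOfSpanEq_repr, Basis.traceDual_repr_apply, Algebra.traceMatrix_apply,
      Algebra.traceForm_apply, Algebra.traceForm_apply, mul_comm]
  refine ⟨(b.toMatrix w).det, hdet, ?_⟩
  have e3 : Ideal.span {(b.toMatrix w).det} = Ideal.span {∏ i, a i} :=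
    Ideal.span_singleton_eq_span_singleton.mpr hassoc
  have e4 := e1.symm.trans e2
  simp_rw [length_quotient_span_singleton A (ha0 _)] at e4
  rw [← Nat.cast_sum, ← card_factors_prod_span A a ha0, ← e3] at e4
  exact_mod_cast e4.symm

theorem card_factors_discr_eq (u : Basis ι K L)
    (hu : Submodule.span A (Set.range u) = (1 : Submodule B L).restrictScalars A)
    (hres : ∀ P : Ideal B, P.IsMaximal → Function.Surjective (algebraMap A (B ⧸ P)))
    (d : A) (hd : algebraMap A K d = Algebra.discr K u) :
    Multiset.card (normalizedFactors (Ideal.span {d})) =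
      Multiset.card (normalizedFactors (differentIdeal A B)) := by
  obtain ⟨d', hd', h⟩ := exists_card_factors_discr_eq A K L B u hu hres
  have : d' = d := IsFractionRing.injective A K (hd'.trans hd.symm)
  rwa [this] at h

end main

end Fermat.Agent.ProgramR.RR
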