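import Fermat.Agent.ProgramR.RR.Birkhoff
set_option autoImplicit false
namespace Fermat.Agent.ProgramR.RR
open Polynomial Matrix

variable {k : Type*} [Field k] {F : Type*} [Field F] [Algebra (RatFunc k) F] {n : ℕ}

local notation "ι" => algebraMap k[X] (RatFunc k)

/-- The lattice spanned by a basis over a subring of the rational function field. -/
def Latt (R : Subring (RatFunc k)) (w : Module.Basis (Fin n) (RatFunc k) F) : Set F :=
  {x | ∀ i, w.repr x i ∈ R}

theorem mem_Latt {R : Subring (RatFunc k)} {w : Module.Basis (Fin n) (RatFunc k) F} {x : F} :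
    x ∈ Latt R w ↔ ∀ i, w.repr x i ∈ R := Iff.rfl

theorem basis_mem_Latt (R : Subring (RatFunc k)) (w : Module.Basis (Fin n) (RatFunc k) F)
    (i : Fin n) : w i ∈ Latt R w := by
  classical
  intro j
  rw [Module.Basis.repr_self, Finsupp.single_apply]
  split_ifs
  · exact R.one_mem
  · exact R.zero_mem

/-- coordinates under a change of basis -/
theorem repr_eq_sum_of_basis_eq (w w' : Module.Basis (Fin n) (RatFunc k) F)
    (T : Matrix (Fin n) (Fin n) (RatFunc k)) (h : ∀ i, w' i = ∑ j, T i j • w j) (x : F) (j : Fin n) :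
    w.repr x j = ∑ i, w'.repr x i * T i j := by
  classical
  conv_lhs => rw [← w'.sum_repr x]
  simp only [h, map_sum, map_smul, Finsupp.coe_finsetSum, Finset.sum_apply, Finsupp.coe_smul,
    Pi.smul_apply, Module.Basis.repr_self, Finsupp.single_apply, smul_eq_mul]
  apply Finset.sum_congr rfl
  intro i _
  rw [Finset.mul_sum]
  simp

theorem latt_eq_of_matrix (R : Subring (RatFunc k)) (w w' : Module.Basis (Fin n) (RatFunc k) F)
    (T T' : Matrix (Fin n) (Fin n) (RatFunc k)) (h : ∀ i, w' i = ∑ j, T i j • w j)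
    (hT : ∀ i j, T i j ∈ R) (hT' : ∀ i j, T' i j ∈ R) (hTT' : T * T' = 1) :
    Latt R w' = Latt R w := by
  have hc : ∀ x : F, (fun j => w.repr x j) = (fun i => w'.repr x i) ᵥ* T := by
    intro x
    funext j
    rw [repr_eq_sum_of_basis_eq w w' T h x j]
    rfl
  ext x
  constructor
  · intro hx j
    rw [repr_eq_sum_of_basis_eq w w' T h x j]
    exact R.sum_mem fun i _ => R.mul_mem (hx i) (hT i j)
  · intro hx i
    have h2 : (fun i => w'.repr x i) = (fun j => w.repr x j) ᵥ* T' := by
      rw [hc x, Matrix.vecMul_vecMul, hTT', Matrix.vecMul_one]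
    have h3 : w'.repr x i = ∑ j, w.repr x j * T' j i := congrFun h2 i
    rw [h3]
    exact R.sum_mem fun j _ => R.mul_mem (hx j) (hT' j i)

end Fermat.Agent.ProgramR.RR
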