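import Mathlib
set_option autoImplicit false
set_option linter.unusedSectionVars false
/-!
Program R / R2b (helper7): over an algebraically closed field `k`, all residue fields of a finite
extension `B` of a `k`-algebra `A` with `k`-rational closed points are quotients of `A`.
-/
namespace Fermat.Agent.ProgramR.RR
open Polynomial

theorem surjective_algebraMap_quotient_of_isAlgClosed
    {k A B : Type*} [Field k] [IsAlgClosed k] [CommRing A] [Algebra k A] [CommRing B]
    [Algebra A B] [Module.Finite A B]
    (hA : ∀ p : Ideal A, p.IsMaximal → Function.Surjective (algebraMap k (A ⧸ p)))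
    (P : Ideal B) (hP : P.IsMaximal) : Function.Surjective (algebraMap A (B ⧸ P)) := by
  have hp : (P.under A).IsMaximal := Ideal.isMaximal_comap_of_isIntegral_of_isMaximal P
  let _ : Field (B ⧸ P) := Ideal.Quotient.field P
  let _ : Algebra k (B ⧸ P) := ((algebraMap A (B ⧸ P)).comp (algebraMap k A)).toAlgebra
  have tower : IsScalarTower k A (B ⧸ P) := IsScalarTower.of_algebraMap_eq (fun _ => rfl)
  have key : ∀ a : A, ∃ c : k, algebraMap A (B ⧸ P) a = algebraMap k (B ⧸ P) c := by
    intro a
    obtain ⟨c, hc⟩ := hA (P.under A) hp (Ideal.Quotient.mk _ a)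
    refine ⟨c, ?_⟩
    rw [IsScalarTower.algebraMap_apply k A (A ⧸ P.under A), Ideal.Quotient.algebraMap_eq,
      Ideal.Quotient.eq, Ideal.mem_comap] at hc
    rw [IsScalarTower.algebraMap_apply k A (B ⧸ P), ← sub_eq_zero, ← map_sub,
      IsScalarTower.algebraMap_apply A B (B ⧸ P), Ideal.Quotient.algebraMap_eq,
      Ideal.Quotient.eq_zero_iff_mem]
    have := P.neg_mem hc
    rwa [← map_neg, neg_sub] at this
  have hfin : Module.Finite k (B ⧸ P) := by
    obtain ⟨S, hS⟩ := (Module.Finite.fg_top : (⊤ : Submodule A (B ⧸ P)).FG)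
    refine ⟨⟨S, ?_⟩⟩
    rw [eq_top_iff]
    rintro x -
    have hx : x ∈ Submodule.span A (S : Set (B ⧸ P)) := by rw [hS]; trivial
    induction hx using Submodule.span_induction with
    | mem y hy => exact Submodule.subset_span hy
    | zero => exact Submodule.zero_mem _
    | add y z _ _ hy hz => exact Submodule.add_mem _ hy hz
    | smul a y _ hy =>
      obtain ⟨c, hc⟩ := key a
      have : a • y = c • y := by rw [Algebra.smul_def, Algebra.smul_def, hc]
      rw [this]
      exact Submodule.smul_mem _ c hy
  have hint : Algebra.IsIntegral k (B ⧸ P) := Algebra.IsIntegral.of_finite k (B ⧸ P)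
  intro y
  obtain ⟨c, hc⟩ := (IsAlgClosed.algebraMap_bijective_of_isIntegral (k := k) (K := B ⧸ P)).2 y
  exact ⟨algebraMap k A c, by rw [← hc]; rfl⟩

/-- closed points of the affine line over an algebraically closed field are rational. -/
theorem surjective_algebraMap_quotient_polynomial {k : Type*} [Field k] [IsAlgClosed k]
    (p : Ideal k[X]) (hp : p.IsMaximal) : Function.Surjective (algebraMap k (k[X] ⧸ p)) := by
  let _ : Field (k[X] ⧸ p) := Ideal.Quotient.field p
  have hfin : Module.Finite k (k[X] ⧸ p) := finite_of_finite_type_of_isJacobsonRing k (k[X] ⧸ p)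
  have hint : Algebra.IsIntegral k (k[X] ⧸ p) := Algebra.IsIntegral.of_finite k (k[X] ⧸ p)
  exact (IsAlgClosed.algebraMap_bijective_of_isIntegral (k := k) (K := k[X] ⧸ p)).2

end Fermat.Agent.ProgramR.RR
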