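import Mathlib
import Fermat.Agent.ProgramR.RR.Lattice
import Fermat.Agent.ProgramR.RR.DiscDiff
import Fermat.Agent.ProgramR.RR.DiffSum
import Fermat.Agent.ProgramR.RR.ResidueK
import Fermat.Agent.ProgramR.Alg.AinfDVR
set_option autoImplicit false
set_option linter.unusedSectionVars false
/-!
Program R / R2b (helper7), **(b3-fin)**: the degree of the discriminant of an integral basis of the
finite chart `B / k[X]` is `∑ᶠ c, (n - #{places over c})`.
-/
namespace Fermat.Agent.ProgramR.RR
open Polynomial Module UniqueFactorizationMonoid IsDedekindDomain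

section generic

variable (A : Type*) {B : Type*} [CommRing A] [IsDomain A] [CommRing B] [IsDedekindDomain B]
  [Algebra A B] [IsTorsionFree A B]

/-- primes of `B` over a principal maximal ideal `(t)`, counted as height one primes
containing `t`. -/
theorem card_primesOver_span_singleton (t : A) (ht : t ≠ 0) [hmax : (Ideal.span {t}).IsMaximal] :
    Nat.card ((Ideal.span {t}).primesOver B) =
      Nat.card {P : HeightOneSpectrum B // algebraMap A B t ∈ P.asIdeal} := by
  have hp : Ideal.span {t} ≠ 0 := by
    rw [Ne, Ideal.zero_eq_bot, Ideal.span_singleton_eq_bot]; exact ht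
  refine Nat.card_congr ((HeightOneSpectrum.equivPrimesOver B hp).symm.trans
    (Equiv.subtypeEquivRight fun v => ?_))
  rw [Ideal.dvd_iff_le, Ideal.map_span, Set.image_singleton, Ideal.span_singleton_le_iff_mem]

end generic

section poly

variable {k : Type*} [Field k] [IsAlgClosed k]

theorem card_normalizedFactors_span_eq_natDegree (d : k[X]) (hd : d ≠ 0) :
    Multiset.card (normalizedFactors (Ideal.span {d})) = d.natDegree := by
  classical
  have h1 := Polynomial.C_leadingCoeff_mul_prod_multiset_X_sub_C (p := d)
    IsAlgClosed.card_roots_eq_natDegree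
  have hunit : Ideal.span {C d.leadingCoeff} = (⊤ : Ideal k[X]) :=
    Ideal.span_singleton_eq_top.mpr
      (isUnit_C.mpr (isUnit_iff_ne_zero.mpr (leadingCoeff_ne_zero.mpr hd)))
  have h2 : Ideal.span {d} = (d.roots.map (fun a => Ideal.span {X - C a})).prod := by
    conv_lhs => rw [← h1]
    rw [← Ideal.span_singleton_mul_span_singleton, hunit, Ideal.top_mul,
      ← Ideal.multiset_prod_span_singleton, Multiset.map_map]
    rfl
  rw [h2, normalizedFactors_prod_of_prime, Multiset.card_map,
    IsAlgClosed.card_roots_eq_natDegree]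
  intro I hI
  obtain ⟨a, -, rfl⟩ := Multiset.mem_map.mp hI
  have h0 : Ideal.span {(X - C a : k[X])} ≠ ⊥ := by
    rw [Ne, Ideal.span_singleton_eq_bot]; exact X_sub_C_ne_zero a
  rw [Ideal.prime_iff_isPrime h0, Ideal.span_singleton_prime (X_sub_C_ne_zero a)]
  exact prime_X_sub_C a

theorem isMaximal_span_X_sub_C (c : k) : (Ideal.span {(X - C c : k[X])}).IsMaximal := by
  have h0 : Ideal.span {(X - C c : k[X])} ≠ ⊥ := by
    rw [Ne, Ideal.span_singleton_eq_bot]; exact X_sub_C_ne_zero c
  have hp : (Ideal.span {(X - C c : k[X])}).IsPrime :=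
    (Ideal.span_singleton_prime (X_sub_C_ne_zero c)).mpr (prime_X_sub_C c)
  exact hp.isMaximal h0

/-- the point `c` of the affine line as a height one prime of `k[X]`. -/
noncomputable def pointPrime (c : k) : HeightOneSpectrum k[X] where
  asIdeal := Ideal.span {X - C c}
  isPrime := (isMaximal_span_X_sub_C c).isPrime
  ne_bot := by rw [Ne, Ideal.span_singleton_eq_bot]; exact X_sub_C_ne_zero c

theorem pointPrime_bijective : Function.Bijective (pointPrime (k := k)) := by
  constructor
  · intro c c' h
    have h1 : (X - C c' : k[X]) ∈ Ideal.span {(X - C c : k[X])} := by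
      have : (pointPrime c).asIdeal = (pointPrime c').asIdeal := by rw [h]
      show (X - C c' : k[X]) ∈ (pointPrime c).asIdeal
      rw [this]
      exact Ideal.mem_span_singleton_self _
    rw [Ideal.mem_span_singleton, dvd_iff_isRoot, IsRoot.def, eval_sub, eval_X, eval_C,
      sub_eq_zero] at h1
    exact h1
  · intro p
    have hpmax : p.asIdeal.IsMaximal := p.isMaximal
    obtain ⟨c, hc⟩ := surjective_algebraMap_quotient_polynomial p.asIdeal hpmax
      (Ideal.Quotient.mk _ X)
    refine ⟨c, HeightOneSpectrum.ext ?_⟩
    have hmem : (X - C c : k[X]) ∈ p.asIdeal := by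
      rw [← Ideal.Quotient.eq, ← hc]
      rfl
    have hle : Ideal.span {(X - C c : k[X])} ≤ p.asIdeal :=
      (Ideal.span_singleton_le_iff_mem _).mpr hmem
    exact (isMaximal_span_X_sub_C c).eq_of_le hpmax.ne_top hle

end poly

section finiteChart

variable (k : Type*) [Field k] [IsAlgClosed k] [CharZero k]
  (F : Type*) [Field F] [Algebra (RatFunc k) F] [FiniteDimensional (RatFunc k) F]
  (B : Type*) [CommRing B] [IsDedekindDomain B] [Algebra k[X] B] [Module.Finite k[X] B]
  [IsTorsionFree k[X] B] [Algebra B F] [IsFractionRing B F] [Algebra k[X] F]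
  [IsScalarTower k[X] (RatFunc k) F] [IsScalarTower k[X] B F]

theorem span_eq_one_of_latt_eq {n : ℕ} (u : Module.Basis (Fin n) (RatFunc k) F)
    (hu : Latt (Apoly k) u = Set.range (algebraMap B F)) :
    Submodule.span k[X] (Set.range u) = (1 : Submodule B F).restrictScalars k[X] := by
  ext x
  rw [Basis.mem_span_iff_repr_mem, Submodule.restrictScalars_mem, Submodule.mem_one]
  have : x ∈ Latt (Apoly k) u ↔ x ∈ Set.range (algebraMap B F) := by rw [hu]
  rw [mem_Latt] at this
  exact this

/-- **(b3-fin)** the degree of the discriminant of the finite chart. -/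
theorem intDegree_discr_eq_finsum {n : ℕ} (u : Module.Basis (Fin n) (RatFunc k) F)
    (hu : Latt (Apoly k) u = Set.range (algebraMap B F)) :
    (Algebra.discr (RatFunc k) u).intDegree =
      ∑ᶠ c : k, ((finrank (RatFunc k) F : ℤ) -
        Nat.card {P : HeightOneSpectrum B // algebraMap k[X] B (X - C c) ∈ P.asIdeal}) := by
  classical
  have hchar0 : CharZero (RatFunc k) :=
    charZero_of_injective_algebraMap (algebraMap k (RatFunc k)).injective
  have hsep : Algebra.IsSeparable (RatFunc k) F := inferInstance
  have hu' := span_eq_one_of_latt_eq k F B u hu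
  have hres : ∀ P : Ideal B, P.IsMaximal → Function.Surjective (algebraMap k[X] (B ⧸ P)) :=
    fun P hP => surjective_algebraMap_quotient_of_isAlgClosed (k := k)
      surjective_algebraMap_quotient_polynomial P hP
  have hchar : ∀ p : Ideal k[X], p.IsMaximal → CharZero (k[X] ⧸ p) :=
    fun p hp => Alg.charZero_quotient_of_algebra k p hp.ne_top
  obtain ⟨d, hd, hcard⟩ := exists_card_factors_discr_eq k[X] (RatFunc k) F B u hu' hres
  have hsum := card_factors_different_eq_finsum k[X] (RatFunc k) F B hchar hres
  have hd0 : d ≠ 0 := by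
    rintro rfl
    rw [map_zero] at hd
    exact Algebra.discr_not_zero_of_basis (RatFunc k) u hd.symm
  rw [← hd, intDegree_algebraMap, ← card_normalizedFactors_span_eq_natDegree d hd0, hcard, hsum]
  symm
  refine finsum_eq_of_bijective pointPrime pointPrime_bijective fun c => ?_
  have hmax : (Ideal.span {(X - C c : k[X])}).IsMaximal := isMaximal_span_X_sub_C c
  rw [← card_primesOver_span_singleton k[X] (B := B) (X - C c) (X_sub_C_ne_zero c)]
  rfl

end finiteChart

end Fermat.Agent.ProgramR.RR
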