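import Mathlib
import Fermat.Agent.ProgramR.RR.DiscPoly
set_option autoImplicit false
set_option linter.unusedSectionVars false
/-!
Program R / R2b (helper7), **(b3-inf)**: the order at infinity of the discriminant of an integral
basis of the chart at infinity `B∞ / Ainf k` is `n - #{places at infinity}`.
-/
namespace Fermat.Agent.ProgramR.RR
open Polynomial Module UniqueFactorizationMonoid IsDedekindDomain Fermat.Agent.ProgramR.Alg

section ainf

variable {k : Type*} [Field k]

theorem irreducible_XinvAinf : Irreducible (XinvAinf : Ainf k) :=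
  (IsDiscreteValuationRing.irreducible_iff_uniformizer _).mpr maximalIdeal_Ainf_eq

theorem intDegree_XinvAinf_pow (m : ℕ) :
    (((XinvAinf : Ainf k) ^ m : Ainf k) : RatFunc k).intDegree = -(m : ℤ) := by
  have : (((XinvAinf : Ainf k) ^ m : Ainf k) : RatFunc k) = (RatFunc.X : RatFunc k) ^ (-(m : ℤ)) := by
    rw [Subring.coe_pow, zpow_neg, zpow_natCast, ← inv_pow]
    rfl
  rw [this, intDegree_X_zpow]

/-- number of prime factors of a nonzero element of `Ainf` = its order of vanishing at `∞`. -/
theorem card_normalizedFactors_span_eq_neg_intDegree (d : Ainf k) (hd : d ≠ 0) :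
    (Multiset.card (normalizedFactors (Ideal.span {d})) : ℤ) = -(d : RatFunc k).intDegree := by
  classical
  obtain ⟨m, hm⟩ := IsDiscreteValuationRing.associated_pow_irreducible hd irreducible_XinvAinf
  have h1 : Ideal.span {d} = (Ideal.span {(XinvAinf : Ainf k)}) ^ m := by
    rw [Ideal.span_singleton_pow]
    exact Ideal.span_singleton_eq_span_singleton.mpr hm
  have h0 : Ideal.span {(XinvAinf : Ainf k)} ≠ ⊥ := by
    rw [Ne, Ideal.span_singleton_eq_bot]; exact XinvAinf_ne_zero
  have hprime : Prime (Ideal.span {(XinvAinf : Ainf k)}) := by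
    rw [Ideal.prime_iff_isPrime h0, Ideal.span_singleton_prime XinvAinf_ne_zero]
    exact irreducible_XinvAinf.prime
  rw [h1, normalizedFactors_pow, normalizedFactors_irreducible hprime.irreducible,
    Multiset.card_nsmul, Multiset.card_singleton, mul_one]
  obtain ⟨u, hu⟩ := hm
  have hd' : (d : RatFunc k) * ((u : Ainf k) : RatFunc k)
      = (((XinvAinf : Ainf k) ^ m : Ainf k) : RatFunc k) := by
    rw [← Subring.coe_mul, hu]
  have hu0 : ((u : Ainf k) : RatFunc k) ≠ 0 := by
    intro h
    exact u.ne_zero (Subtype.ext h)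
  have hd0 : (d : RatFunc k) ≠ 0 := fun h => hd (Subtype.ext h)
  have hudeg : ((u : Ainf k) : RatFunc k).intDegree = 0 := (isUnit_Ainf_iff.mp u.isUnit).2
  have := congrArg RatFunc.intDegree hd'
  rw [RatFunc.intDegree_mul hd0 hu0, hudeg, add_zero, intDegree_XinvAinf_pow] at this
  rw [this, neg_neg]

/-- the residue field of `Ainf` is `k`. -/
theorem exists_sub_mem_maximalIdeal_Ainf (r : Ainf k) :
    ∃ c : k, r - algebraMap k (Ainf k) c ∈ IsLocalRing.maximalIdeal (Ainf k) := by
  by_cases hr : IsUnit r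
  swap
  · exact ⟨0, by rw [map_zero, sub_zero]; exact (IsLocalRing.mem_maximalIdeal _).mpr hr⟩
  obtain ⟨hr0, hdeg⟩ := isUnit_Ainf_iff.mp hr
  have hr0' : (r : RatFunc k) ≠ 0 := fun h => hr0 (Subtype.ext h)
  set p := (r : RatFunc k).num with hp
  set q := (r : RatFunc k).denom with hq
  have hq0 : q ≠ 0 := RatFunc.denom_ne_zero _
  have hp0 : p ≠ 0 := RatFunc.num_ne_zero hr0'
  have hpq : (r : RatFunc k) = algebraMap k[X] (RatFunc k) p / algebraMap k[X] (RatFunc k) q :=
    (RatFunc.num_div_denom _).symm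
  have hnat : p.natDegree = q.natDegree := by
    have h1 : (r : RatFunc k).intDegree = (p.natDegree : ℤ) - q.natDegree := rfl
    omega
  set c := p.leadingCoeff / q.leadingCoeff with hc
  refine ⟨c, ?_⟩
  rw [IsLocalRing.mem_maximalIdeal, mem_nonunits_iff, isUnit_Ainf_iff]
  rintro ⟨hne, hdeg'⟩
  have hne' : ((r - algebraMap k (Ainf k) c : Ainf k) : RatFunc k) ≠ 0 :=
    fun h => hne (Subtype.ext h)
  have hval : ((r - algebraMap k (Ainf k) c : Ainf k) : RatFunc k)
      = algebraMap k[X] (RatFunc k) (p - C c * q) / algebraMap k[X] (RatFunc k) q := by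
    have hq' : algebraMap k[X] (RatFunc k) q ≠ 0 := algebraMap_ne_zero hq0
    rw [AddSubgroupClass.coe_sub, hpq, map_sub, map_mul, sub_div, mul_div_assoc, div_self hq', mul_one]
    congr 1
  have hN0 : p - C c * q ≠ 0 := by
    intro h
    rw [hval, h, map_zero, zero_div] at hne'
    exact hne' rfl
  have hlc : (C c * q).leadingCoeff = p.leadingCoeff := by
    rw [leadingCoeff_mul, leadingCoeff_C, hc, div_mul_cancel₀ _ (leadingCoeff_ne_zero.mpr hq0)]
  have hc0 : c ≠ 0 := div_ne_zero (leadingCoeff_ne_zero.mpr hp0) (leadingCoeff_ne_zero.mpr hq0)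
  have hdegeq : p.degree = (C c * q).degree := by
    rw [degree_C_mul hc0, degree_eq_natDegree hp0, degree_eq_natDegree hq0, hnat]
  have hlt : (p - C c * q).degree < p.degree := degree_sub_lt_left hdegeq hp0 hlc.symm
  have hlt' : (p - C c * q).natDegree < q.natDegree := by
    rw [← hnat]
    exact (natDegree_lt_natDegree_iff hN0).mpr hlt
  rw [hval, div_eq_mul_inv, RatFunc.intDegree_mul (algebraMap_ne_zero hN0)
    (inv_ne_zero (algebraMap_ne_zero hq0)), RatFunc.intDegree_inv, intDegree_algebraMap,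
    intDegree_algebraMap] at hdeg'
  omega

theorem surjective_algebraMap_quotient_Ainf (p : Ideal (Ainf k)) (hp : p.IsMaximal) :
    Function.Surjective (algebraMap k (Ainf k ⧸ p)) := by
  have hpm : p = IsLocalRing.maximalIdeal (Ainf k) := IsLocalRing.eq_maximalIdeal hp
  intro y
  obtain ⟨r, rfl⟩ := Ideal.Quotient.mk_surjective y
  obtain ⟨c, hc⟩ := exists_sub_mem_maximalIdeal_Ainf r
  refine ⟨c, ?_⟩
  rw [IsScalarTower.algebraMap_apply k (Ainf k) (Ainf k ⧸ p), Ideal.Quotient.algebraMap_eq,
    eq_comm, Ideal.Quotient.eq, hpm]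
  exact hc

/-- the unique height one prime of `Ainf`. -/
noncomputable def inftyPrime : HeightOneSpectrum (Ainf k) where
  asIdeal := IsLocalRing.maximalIdeal (Ainf k)
  isPrime := (IsLocalRing.maximalIdeal.isMaximal _).isPrime
  ne_bot := by
    rw [maximalIdeal_Ainf_eq, Ne, Ideal.span_singleton_eq_bot]; exact XinvAinf_ne_zero

theorem eq_inftyPrime (p : HeightOneSpectrum (Ainf k)) : p = inftyPrime :=
  HeightOneSpectrum.ext (IsLocalRing.eq_maximalIdeal p.isMaximal)

end ainf

section infiniteChart

variable (k : Type*) [Field k] [IsAlgClosed k] [CharZero k]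
  (F : Type*) [Field F] [Algebra (RatFunc k) F] [FiniteDimensional (RatFunc k) F]
  (Binf : Type*) [CommRing Binf] [IsDedekindDomain Binf] [Algebra (Ainf k) Binf]
  [Module.Finite (Ainf k) Binf] [IsTorsionFree (Ainf k) Binf] [Algebra Binf F]
  [IsFractionRing Binf F] [Algebra (Ainf k) F] [IsScalarTower (Ainf k) (RatFunc k) F]
  [IsScalarTower (Ainf k) Binf F]

theorem span_eq_one_of_latt_eq_inf {n : ℕ} (v : Module.Basis (Fin n) (RatFunc k) F)
    (hv : Latt (Ainf k) v = Set.range (algebraMap Binf F)) :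
    Submodule.span (Ainf k) (Set.range v) = (1 : Submodule Binf F).restrictScalars (Ainf k) := by
  ext x
  rw [Basis.mem_span_iff_repr_mem, Submodule.restrictScalars_mem, Submodule.mem_one]
  have : x ∈ Latt (Ainf k) v ↔ x ∈ Set.range (algebraMap Binf F) := by rw [hv]
  rw [mem_Latt] at this
  have h2 : ∀ r : RatFunc k, r ∈ Set.range (algebraMap (Ainf k) (RatFunc k)) ↔ r ∈ Ainf k :=
    fun r => ⟨fun ⟨y, hy⟩ => hy ▸ y.2, fun hr => ⟨⟨r, hr⟩, rfl⟩⟩
  simp only [h2]
  exact this

theorem algebraMap_XinvAinf_mem (P : HeightOneSpectrum Binf) :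
    algebraMap (Ainf k) Binf XinvAinf ∈ P.asIdeal := by
  have hp0 : P.asIdeal.under (Ainf k) ≠ ⊥ := mt Ideal.eq_bot_of_comap_eq_bot P.ne_bot
  have hmax : (P.asIdeal.under (Ainf k)).IsMaximal := Ideal.IsPrime.isMaximal inferInstance hp0
  have h1 : P.asIdeal.under (Ainf k) = Ideal.span {XinvAinf} := by
    rw [← maximalIdeal_Ainf_eq]
    exact IsLocalRing.eq_maximalIdeal hmax
  have h2 : (XinvAinf : Ainf k) ∈ P.asIdeal.under (Ainf k) := by
    rw [h1]; exact Ideal.mem_span_singleton_self _
  exact h2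

/-- **(b3-inf)** the order at infinity of the discriminant of the chart at infinity. -/
theorem neg_intDegree_discr_eq {n : ℕ} (v : Module.Basis (Fin n) (RatFunc k) F)
    (hv : Latt (Ainf k) v = Set.range (algebraMap Binf F)) :
    -(Algebra.discr (RatFunc k) v).intDegree =
      (finrank (RatFunc k) F : ℤ) - Nat.card (HeightOneSpectrum Binf) := by
  classical
  have hchar0 : CharZero (RatFunc k) :=
    charZero_of_injective_algebraMap (algebraMap k (RatFunc k)).injective
  have hsep : Algebra.IsSeparable (RatFunc k) F := inferInstance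
  have hv' := span_eq_one_of_latt_eq_inf k F Binf v hv
  have hres : ∀ P : Ideal Binf, P.IsMaximal →
      Function.Surjective (algebraMap (Ainf k) (Binf ⧸ P)) :=
    fun P hP => surjective_algebraMap_quotient_of_isAlgClosed (k := k)
      surjective_algebraMap_quotient_Ainf P hP
  have hchar : ∀ p : Ideal (Ainf k), p.IsMaximal → CharZero (Ainf k ⧸ p) :=
    fun p hp => Alg.charZero_quotient_of_algebra k p hp.ne_top
  obtain ⟨d, hd, hcard⟩ := exists_card_factors_discr_eq (Ainf k) (RatFunc k) F Binf v hv' hres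
  have hsum := card_factors_different_eq_finsum (Ainf k) (RatFunc k) F Binf hchar hres
  have hd0 : d ≠ 0 := by
    rintro rfl
    rw [map_zero] at hd
    exact Algebra.discr_not_zero_of_basis (RatFunc k) v hd.symm
  have hd' : Algebra.discr (RatFunc k) v = (d : RatFunc k) := hd.symm
  rw [hd', ← card_normalizedFactors_span_eq_neg_intDegree d hd0, hcard, hsum,
    finsum_eq_single _ inftyPrime (fun p hp => absurd (eq_inftyPrime p) hp)]
  congr 2
  have hmax : (Ideal.span {(XinvAinf : Ainf k)}).IsMaximal := by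
    rw [← maximalIdeal_Ainf_eq]; exact IsLocalRing.maximalIdeal.isMaximal _
  have h1 : (inftyPrime (k := k)).asIdeal = Ideal.span {XinvAinf} := maximalIdeal_Ainf_eq
  rw [h1, card_primesOver_span_singleton (Ainf k) (B := Binf) XinvAinf XinvAinf_ne_zero]
  exact Nat.card_congr (Equiv.subtypeUnivEquiv (algebraMap_XinvAinf_mem k Binf))

end infiniteChart

end Fermat.Agent.ProgramR.RR
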