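import Fermat.Agent.ProgramR.RR.Count
set_option autoImplicit false
namespace Fermat.Agent.ProgramR.RR
open Polynomial Matrix

variable {k : Type*} [Field k] {F : Type*} [Field F] [Algebra (RatFunc k) F] {n : ℕ}
variable [Algebra k F] [IsScalarTower k (RatFunc k) F]

local notation "ι" => algebraMap k[X] (RatFunc k)

theorem algebraMap_smul_mem_Latt {R : Subring (RatFunc k)} (hR : ∀ c : k, algebraMap k (RatFunc k) c ∈ R)
    (w : Module.Basis (Fin n) (RatFunc k) F) (c : k) {x : F} (hx : x ∈ Latt R w) :
    c • x ∈ Latt R w := by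
  intro i
  rw [repr_smul_eq]
  exact R.mul_mem (hR c) (hx i)

theorem add_mem_Latt {R : Subring (RatFunc k)} (w : Module.Basis (Fin n) (RatFunc k) F) {x y : F}
    (hx : x ∈ Latt R w) (hy : y ∈ Latt R w) : x + y ∈ Latt R w := by
  intro i
  rw [map_add, Finsupp.add_apply]
  exact R.add_mem (hx i) (hy i)

theorem zero_mem_Latt {R : Subring (RatFunc k)} (w : Module.Basis (Fin n) (RatFunc k) F) :
    (0 : F) ∈ Latt R w := by
  intro i
  rw [map_zero, Finsupp.zero_apply]
  exact R.zero_mem

/-- `L(0)`: the elements of both lattices (functions regular everywhere). -/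
def regularSubspace (u v : Module.Basis (Fin n) (RatFunc k) F) : Submodule k F where
  carrier := {x | x ∈ Latt (Apoly k) u ∧ x ∈ Latt (Ainf k) v}
  add_mem' := fun hx hy => ⟨add_mem_Latt u hx.1 hy.1, add_mem_Latt v hx.2 hy.2⟩
  zero_mem' := ⟨zero_mem_Latt u, zero_mem_Latt v⟩
  smul_mem' := fun c _ hx => ⟨algebraMap_smul_mem_Latt algebraMap_C_mem_Apoly u c hx.1,
    algebraMap_smul_mem_Latt algebraMap_C_mem_Ainf v c hx.2⟩

/-- The space of `h` such that `h dX` is a regular differential: `h` is in the trace dual of the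
finite lattice, and `X² h` in the trace dual of the lattice at infinity. -/
def differentialSubspace (u v : Module.Basis (Fin n) (RatFunc k) F) : Submodule k F where
  carrier := {h | (∀ x ∈ Latt (Apoly k) u, Algebra.trace (RatFunc k) F (h * x) ∈ Apoly k) ∧
    (∀ x ∈ Latt (Ainf k) v,
      (RatFunc.X : RatFunc k) ^ 2 * Algebra.trace (RatFunc k) F (h * x) ∈ Ainf k)}
  add_mem' := by
    rintro h h' ⟨h1, h2⟩ ⟨h1', h2'⟩
    refine ⟨fun x hx => ?_, fun x hx => ?_⟩
    · rw [add_mul, map_add]
      exact (Apoly k).add_mem (h1 x hx) (h1' x hx)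
    · rw [add_mul, map_add, mul_add]
      exact (Ainf k).add_mem (h2 x hx) (h2' x hx)
  zero_mem' := by
    refine ⟨fun x _ => ?_, fun x _ => ?_⟩
    · rw [zero_mul, map_zero]; exact (Apoly k).zero_mem
    · rw [zero_mul, map_zero, mul_zero]; exact (Ainf k).zero_mem
  smul_mem' := by
    rintro c h ⟨h1, h2⟩
    refine ⟨fun x hx => ?_, fun x hx => ?_⟩
    · rw [smul_mul_assoc, ← algebraMap_smul (RatFunc k) c (h * x), map_smul, smul_eq_mul]
      exact (Apoly k).mul_mem (algebraMap_C_mem_Apoly c) (h1 x hx)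
    · rw [smul_mul_assoc, ← algebraMap_smul (RatFunc k) c (h * x), map_smul, smul_eq_mul,
        mul_left_comm]
      exact (Ainf k).mul_mem (algebraMap_C_mem_Ainf c) (h2 x hx)

theorem mem_regularSubspace {u v : Module.Basis (Fin n) (RatFunc k) F} {x : F} :
    x ∈ regularSubspace u v ↔ x ∈ Latt (Apoly k) u ∧ x ∈ Latt (Ainf k) v := Iff.rfl

theorem mem_differentialSubspace {u v : Module.Basis (Fin n) (RatFunc k) F} {h : F} :
    h ∈ differentialSubspace u v ↔
      (∀ x ∈ Latt (Apoly k) u, Algebra.trace (RatFunc k) F (h * x) ∈ Apoly k) ∧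
      (∀ x ∈ Latt (Ainf k) v,
        (RatFunc.X : RatFunc k) ^ 2 * Algebra.trace (RatFunc k) F (h * x) ∈ Ainf k) := Iff.rfl

variable [FiniteDimensional (RatFunc k) F] [Algebra.IsSeparable (RatFunc k) F]

/-- trace against a lattice, tested on the basis -/
theorem trace_mem_of_basis {R : Subring (RatFunc k)} (w : Module.Basis (Fin n) (RatFunc k) F)
    (c : RatFunc k) (h : F) :
    (∀ x ∈ Latt R w, c * Algebra.trace (RatFunc k) F (h * x) ∈ R) ↔
      ∀ i, c * Algebra.trace (RatFunc k) F (h * w i) ∈ R := by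
  constructor
  · intro hh i
    exact hh _ (basis_mem_Latt R w i)
  · intro hh x hx
    have hx' : x = ∑ i, w.repr x i • w i := (w.sum_repr x).symm
    rw [hx', Finset.mul_sum, map_sum, Finset.mul_sum]
    apply R.sum_mem
    intro i _
    rw [mul_smul_comm, map_smul, smul_eq_mul, mul_left_comm]
    exact R.mul_mem (hx i) (hh i)

theorem int_toNat_identity (z : ℤ) : ((z - 1).toNat : ℤ) - ((1 - z).toNat : ℤ) = z - 1 := by
  omega

/-- **Riemann–Roch for the pair of lattices** (Dedekind–Weber form):
`dim Ω - dim L(0) = (deg disc(Λ) - deg disc(Λ∞)) / 2 - n`. -/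
theorem riemannRoch (u v : Module.Basis (Fin n) (RatFunc k) F) :
    2 * ((Module.finrank k (differentialSubspace u v) : ℤ)
        - (Module.finrank k (regularSubspace u v) : ℤ))
      = (Algebra.discr (RatFunc k) u).intDegree - (Algebra.discr (RatFunc k) v).intDegree
        - 2 * n := by
  classical
  obtain ⟨b, a, hb, hv, hdisc⟩ := exists_normal_basis u v
  set v' := b.isUnitSMul (fun i => (isUnit_iff_ne_zero.mpr (X_zpow_ne_zero (k := k) (-(a i)))))
    with hv'def
  have hv'repr : ∀ x i, v'.repr x i = (RatFunc.X : RatFunc k) ^ (a i) * b.repr x i := by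
    intro x i
    rw [hv'def, Module.Basis.repr_isUnitSMul, Units.smul_def, smul_eq_mul]
    congr 1
    rw [Units.val_inv_eq_inv_val, IsUnit.unit_spec, ← _root_.zpow_neg, neg_neg]
  have hv'apply : ∀ i, v' i = (RatFunc.X : RatFunc k) ^ (-(a i)) • b i := fun i =>
    Module.Basis.isUnitSMul_apply _ i
  -- the regular subspace
  have hreg : regularSubspace u v = boundedSubspace b a := by
    ext x
    rw [mem_regularSubspace, mem_boundedSubspace, ← hb, ← hv]
    constructor
    · rintro ⟨h1, h2⟩ i
      exact ⟨h1 i, by rw [← hv'repr]; exact h2 i⟩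
    · intro h
      exact ⟨fun i => (h i).1, fun i => by rw [hv'repr]; exact (h i).2⟩
  -- the differential subspace
  let bd := (Algebra.traceForm (RatFunc k) F).dualBasis (traceForm_nondegenerate (RatFunc k) F) b
  have hbd : ∀ h i, bd.repr h i = Algebra.trace (RatFunc k) F (h * b i) := by
    intro h i
    rw [LinearMap.BilinForm.dualBasis_repr_apply, Algebra.traceForm_apply]
  have hdiff : differentialSubspace u v = boundedSubspace bd (fun i => 2 - a i) := by
    ext h
    rw [mem_differentialSubspace, mem_boundedSubspace, ← hb, ← hv]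
    have e1 := trace_mem_of_basis (R := Apoly k) b 1 h
    simp only [one_mul] at e1
    rw [e1, trace_mem_of_basis (R := Ainf k) v' ((RatFunc.X : RatFunc k) ^ 2) h]
    have e2 : ∀ i, (RatFunc.X : RatFunc k) ^ 2 * Algebra.trace (RatFunc k) F (h * v' i)
        = (RatFunc.X : RatFunc k) ^ (2 - a i) * bd.repr h i := by
      intro i
      rw [hv'apply, mul_smul_comm, map_smul, smul_eq_mul, hbd, ← mul_assoc, sub_eq_add_neg,
        zpow_add₀ RatFunc.X_ne_zero]
      rfl
    simp only [e2, hbd]
    exact ⟨fun ⟨h1, h2⟩ i => ⟨h1 i, h2 i⟩, fun h => ⟨fun i => (h i).1, fun i => (h i).2⟩⟩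
  rw [hreg, hdiff, finrank_boundedSubspace, finrank_boundedSubspace, hdisc]
  have key : ((∑ i, (1 - (2 - a i)).toNat : ℕ) : ℤ) - ((∑ i, (1 - a i).toNat : ℕ) : ℤ)
      = ∑ i, a i - n := by
    push_cast
    rw [← Finset.sum_sub_distrib]
    have : ∀ i, ((1 - (2 - a i)).toNat : ℤ) - ((1 - a i).toNat : ℤ) = a i - 1 := by
      intro i
      have := int_toNat_identity (a i)
      have e : 1 - (2 - a i) = a i - 1 := by ring
      rw [e]; exact this
    simp only [this, Finset.sum_sub_distrib, Finset.sum_const, Finset.card_univ, Fintype.card_fin,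
      nsmul_eq_mul, mul_one]
  linarith

/-- **Genus formula**: if the only everywhere regular functions are the constants. -/
theorem finrank_differentialSubspace (u v : Module.Basis (Fin n) (RatFunc k) F)
    (h1 : Module.finrank k (regularSubspace u v) = 1) :
    2 * (Module.finrank k (differentialSubspace u v) : ℤ)
      = 2 - 2 * n + ((Algebra.discr (RatFunc k) u).intDegree
          - (Algebra.discr (RatFunc k) v).intDegree) := by
  have := riemannRoch u v
  rw [h1] at this
  push_cast at this
  linarith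

end Fermat.Agent.ProgramR.RR
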