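import Fermat.Agent.ProgramR.RR.Genus
set_option autoImplicit false
/-!
Program R / R2 (helper7): finiteness of the spaces in `Genus.lean`, and the `constants` lemma (b4):
if the only elements of `Λ ∩ Λ∞` are constants, `regularSubspace u v` is one-dimensional.
-/
namespace Fermat.Agent.ProgramR.RR
open Polynomial Matrix

variable {k : Type*} [Field k] {F : Type*} [Field F] [Algebra (RatFunc k) F] {n : ℕ}
variable [Algebra k F] [IsScalarTower k (RatFunc k) F]

theorem finite_boundedSubspace (β : Module.Basis (Fin n) (RatFunc k) F) (e : Fin n → ℤ) :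
    Module.Finite k (boundedSubspace β e) := by
  rw [← range_boundedParam]
  exact Module.Finite.range _

variable [FiniteDimensional (RatFunc k) F] [Algebra.IsSeparable (RatFunc k) F]

/-- both spaces are coordinate-bounded subspaces w.r.t. a normal basis -/
theorem exists_bounded_forms (u v : Module.Basis (Fin n) (RatFunc k) F) :
    ∃ (b bd : Module.Basis (Fin n) (RatFunc k) F) (a : Fin n → ℤ),
      regularSubspace u v = boundedSubspace b a ∧
      differentialSubspace u v = boundedSubspace bd (fun i => 2 - a i) := by
  classical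
  obtain ⟨b, a, hb, hv, -⟩ := exists_normal_basis u v
  set v' := b.isUnitSMul (fun i => (isUnit_iff_ne_zero.mpr (X_zpow_ne_zero (k := k) (-(a i)))))
    with hv'def
  have hv'repr : ∀ x i, v'.repr x i = (RatFunc.X : RatFunc k) ^ (a i) * b.repr x i := by
    intro x i
    rw [hv'def, Module.Basis.repr_isUnitSMul, Units.smul_def, smul_eq_mul]
    congr 1
    rw [Units.val_inv_eq_inv_val, IsUnit.unit_spec, ← _root_.zpow_neg, neg_neg]
  have hv'apply : ∀ i, v' i = (RatFunc.X : RatFunc k) ^ (-(a i)) • b i := fun i =>
    Module.Basis.isUnitSMul_apply _ i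
  let bd := (Algebra.traceForm (RatFunc k) F).dualBasis (traceForm_nondegenerate (RatFunc k) F) b
  have hbd : ∀ h i, bd.repr h i = Algebra.trace (RatFunc k) F (h * b i) := by
    intro h i
    rw [LinearMap.BilinForm.dualBasis_repr_apply, Algebra.traceForm_apply]
  refine ⟨b, bd, a, ?_, ?_⟩
  · ext x
    rw [mem_regularSubspace, mem_boundedSubspace, ← hb, ← hv]
    constructor
    · rintro ⟨h1, h2⟩ i
      exact ⟨h1 i, by rw [← hv'repr]; exact h2 i⟩
    · intro h
      exact ⟨fun i => (h i).1, fun i => by rw [hv'repr]; exact (h i).2⟩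
  · ext h
    rw [mem_differentialSubspace, mem_boundedSubspace, ← hb, ← hv]
    have e1 := trace_mem_of_basis (R := Apoly k) b 1 h
    simp only [one_mul] at e1
    rw [e1, trace_mem_of_basis (R := Ainf k) v' ((RatFunc.X : RatFunc k) ^ 2) h]
    have e2 : ∀ i, (RatFunc.X : RatFunc k) ^ 2 * Algebra.trace (RatFunc k) F (h * v' i)
        = (RatFunc.X : RatFunc k) ^ (2 - a i) * bd.repr h i := by
      intro i
      rw [hv'apply, mul_smul_comm, map_smul, smul_eq_mul, hbd, ← mul_assoc, sub_eq_add_neg,
        zpow_add₀ RatFunc.X_ne_zero]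
      rfl
    simp only [e2, hbd]
    exact ⟨fun ⟨h1, h2⟩ i => ⟨h1 i, h2 i⟩, fun h => ⟨fun i => (h i).1, fun i => (h i).2⟩⟩

theorem finite_regularSubspace (u v : Module.Basis (Fin n) (RatFunc k) F) :
    Module.Finite k (regularSubspace u v) := by
  obtain ⟨b, bd, a, h1, -⟩ := exists_bounded_forms u v
  rw [h1]; exact finite_boundedSubspace b a

theorem finite_differentialSubspace (u v : Module.Basis (Fin n) (RatFunc k) F) :
    Module.Finite k (differentialSubspace u v) := by
  obtain ⟨b, bd, a, -, h2⟩ := exists_bounded_forms u v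
  rw [h2]; exact finite_boundedSubspace bd _

omit [FiniteDimensional (RatFunc k) F] [Algebra.IsSeparable (RatFunc k) F] in
/-- **(b4) constants.** If `1` lies in both lattices and every common element of the two lattices
is a constant, then the space of everywhere regular functions is one-dimensional. -/
theorem finrank_regularSubspace_eq_one (u v : Module.Basis (Fin n) (RatFunc k) F)
    (h1 : (1 : F) ∈ Latt (Apoly k) u) (h1' : (1 : F) ∈ Latt (Ainf k) v)
    (hconst : ∀ h : F, h ∈ Latt (Apoly k) u → h ∈ Latt (Ainf k) v →
      h ∈ Set.range (algebraMap k F)) :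
    Module.finrank k (regularSubspace u v) = 1 := by
  have hone : (1 : F) ∈ regularSubspace u v := mem_regularSubspace.mpr ⟨h1, h1'⟩
  have heq : regularSubspace u v = Submodule.span k {(1 : F)} := by
    apply le_antisymm
    · intro x hx
      obtain ⟨hx1, hx2⟩ := mem_regularSubspace.mp hx
      obtain ⟨c, rfl⟩ := hconst x hx1 hx2
      rw [Submodule.mem_span_singleton]
      exact ⟨c, by rw [Algebra.smul_def, mul_one]⟩
    · rw [Submodule.span_singleton_le_iff_mem]
      exact hone
  rw [heq]
  exact finrank_span_singleton one_ne_zero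

end Fermat.Agent.ProgramR.RR
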