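import Fermat.Agent.ProgramR.RR.DiscInf
import Fermat.Agent.ProgramR.Alg.Setup
set_option autoImplicit false
set_option linter.unusedSectionVars false
/-!
Program R / R2b: **Theorem A, unconditional** (helper3's wrappers `Alg/ThmA.lean`, `Alg/Setup.lean`
fed with helper7's discriminant computations b3-fin / b3-inf).
-/
namespace Fermat.Agent.ProgramR.RR
open Polynomial IsDedekindDomain Module nonZeroDivisors Fermat.Agent.ProgramR.Alg

section
variable (k : Type*) [Field k] [IsAlgClosed k] [CharZero k]
  (F : Type*) [Field F] [Algebra (RatFunc k) F] [FiniteDimensional (RatFunc k) F]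
  [Algebra k F] [IsScalarTower k (RatFunc k) F]
  (B : Type*) [CommRing B] [IsDedekindDomain B] [Algebra k[X] B] [Module.Finite k[X] B]
  [IsTorsionFree k[X] B] [Algebra B F] [IsFractionRing B F] [Algebra k[X] F]
  [IsScalarTower k[X] (RatFunc k) F] [IsScalarTower k[X] B F]
  (Binf : Type*) [CommRing Binf] [IsDedekindDomain Binf] [Algebra (Ainf k) Binf]
  [Module.Finite (Ainf k) Binf] [IsTorsionFree (Ainf k) Binf] [Algebra Binf F]
  [IsFractionRing Binf F] [Algebra (Ainf k) F] [IsScalarTower (Ainf k) (RatFunc k) F]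
  [IsScalarTower (Ainf k) Binf F]

/-- **Theorem A** (dimension of the space of holomorphic differentials), general two-chart form. -/
theorem two_mul_finrank_holDiff
    (hconst : ∀ h : F, h ∈ Set.range (algebraMap B F) → h ∈ Set.range (algebraMap Binf F) →
      h ∈ Set.range (algebraMap k F)) :
    ∃ W : Submodule k F, (∀ h, h ∈ W ↔ FinCond k F B h ∧ InfCond k F Binf h) ∧
      2 * (finrank k W : ℤ) = 2 - 2 * (finrank (RatFunc k) F : ℤ)
        + ∑ᶠ c : k, ((finrank (RatFunc k) F : ℤ) -
            Nat.card {P : HeightOneSpectrum B // algebraMap k[X] B (X - C c) ∈ P.asIdeal})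
        + ((finrank (RatFunc k) F : ℤ) - Nat.card (HeightOneSpectrum Binf)) :=
  two_mul_finrank_holDiff_of_discr k F B Binf
    (fun u hu => intDegree_discr_eq_finsum k F B u hu)
    (fun v hv => neg_intDegree_discr_eq k F Binf v hv) hconst
end

section
variable (k : Type*) [Field k] (B : Type*) [CommRing B] [IsDedekindDomain B] [Algebra k B]
  [Algebra k[X] B] [IsScalarTower k k[X] B] [Module.Finite k[X] B] [IsTorsionFree k[X] B]
  [CharZero k] [IsAlgClosed k]

/-- **Theorem A** in helper3's canonical set-up (`FF k B`, `Binf k B`). -/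
theorem thmA_canonical
    (hconst : ∀ h : FF k B, h ∈ Set.range (algebraMap B (FF k B)) →
      h ∈ Set.range (algebraMap (Binf k B) (FF k B)) → h ∈ Set.range (algebraMap k (FF k B))) :
    ∃ W : Submodule k (FF k B),
      (∀ h, h ∈ W ↔ FinCond k (FF k B) B h ∧ InfCond k (FF k B) (Binf k B) h) ∧
      2 * (finrank k W : ℤ) = 2 - 2 * (finrank k[X] B : ℤ)
        + ∑ᶠ c : k, ((finrank k[X] B : ℤ) -
            Nat.card {P : HeightOneSpectrum B // algebraMap k[X] B (X - C c) ∈ P.asIdeal})
        + ((finrank k[X] B : ℤ) - Nat.card (HeightOneSpectrum (Binf k B))) :=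
  thmA_canonical_of_discr k B
    (fun u hu => intDegree_discr_eq_finsum k (FF k B) B u hu)
    (fun v hv => neg_intDegree_discr_eq k (FF k B) (Binf k B) v hv) hconst
end
end Fermat.Agent.ProgramR.RR
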