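import Fermat.Agent.ProgramR.RR.DetCoeff
import Fermat.Agent.ProgramR.RR.Infty
set_option autoImplicit false
namespace Fermat.Agent.ProgramR.RR
open Polynomial Matrix

variable {k : Type*} [Field k] {n : ℕ}

local notation "ι" => algebraMap k[X] (RatFunc k)

/-- Clearing denominators of a matrix of rational functions. -/
theorem exists_common_denom (N : Matrix (Fin n) (Fin n) (RatFunc k)) :
    ∃ (c : k[X]) (N₀ : Matrix (Fin n) (Fin n) k[X]), c ≠ 0 ∧
      ∀ i j, ι (N₀ i j) = ι c * N i j := by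
  obtain ⟨c, hc⟩ := IsLocalization.exist_integer_multiples (nonZeroDivisors k[X])
    (Finset.univ : Finset (Fin n × Fin n)) (fun p => N p.1 p.2)
  have hc' : ∀ i j, ∃ q : k[X], ι q = ι (c : k[X]) * N i j := by
    intro i j
    obtain ⟨q, hq⟩ := hc (i, j) (Finset.mem_univ _)
    exact ⟨q, by rw [hq, Algebra.smul_def]⟩
  choose N₀ hN₀ using hc'
  exact ⟨c, Matrix.of N₀, nonZeroDivisors.ne_zero c.2, hN₀⟩

/-- **Birkhoff–Grothendieck / Dedekind–Weber factorisation**: every invertible matrix of rational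
functions is `P⁻¹ * diag(X^a) * Q` with `P` invertible over `k[X]` and `Q` invertible over the
ring of functions regular at infinity. -/
theorem exists_birkhoff (N : Matrix (Fin n) (Fin n) (RatFunc k)) (hN : N.det ≠ 0) :
    ∃ (P : Matrix (Fin n) (Fin n) k[X]) (a : Fin n → ℤ) (Q : Matrix (Fin n) (Fin n) (RatFunc k)),
      IsUnit P.det ∧ (∀ i j, Q i j ∈ Ainf k) ∧ Q.det ≠ 0 ∧ Q.det.intDegree = 0 ∧
      P.map ι * N = Matrix.diagonal (fun i => (RatFunc.X : RatFunc k) ^ a i) * Q := by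
  obtain ⟨c, N₀, hc, hN₀⟩ := exists_common_denom N
  have hιc : ι c ≠ 0 := algebraMap_ne_zero hc
  have hN₀map : N₀.map ι = ι c • N := by
    ext i j
    rw [Matrix.map_apply, hN₀, Matrix.smul_apply, smul_eq_mul]
  have hN₀det : N₀.det ≠ 0 := by
    intro h0
    have h1 : (N₀.map ι).det = 0 := by
      rw [← RingHom.mapMatrix_apply, ← RingHom.map_det, h0, map_zero]
    rw [hN₀map, Matrix.det_smul] at h1
    exact hN ((mul_eq_zero.mp h1).resolve_left (pow_ne_zero _ hιc))
  obtain ⟨P, d, hP, hdeg, hlead⟩ := exists_rowReduced N₀ hN₀det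
  have hdetdeg : (P * N₀).det.natDegree = ∑ i, d i := det_natDegree_eq_of_leadMat _ d hdeg hlead
  have hPN₀det : (P * N₀).det ≠ 0 := by
    rw [Matrix.det_mul]
    exact mul_ne_zero hP.ne_zero hN₀det
  let a : Fin n → ℤ := fun i => (d i : ℤ) - c.natDegree
  let Q : Matrix (Fin n) (Fin n) (RatFunc k) :=
    (ι c)⁻¹ • (Matrix.diagonal (fun i => (RatFunc.X : RatFunc k) ^ (-(a i))) * (P * N₀).map ι)
  have hQentry : ∀ i j, Q i j = (ι c)⁻¹ * (RatFunc.X ^ (-(a i)) * ι ((P * N₀) i j)) := by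
    intro i j
    simp only [Q, Matrix.smul_apply, Matrix.diagonal_mul, Matrix.map_apply, smul_eq_mul]
  refine ⟨P, a, Q, hP, ?_, ?_, ?_, ?_⟩
  · intro i j
    rw [hQentry]
    by_cases h0 : (P * N₀) i j = 0
    · rw [h0, map_zero, mul_zero, mul_zero]; exact Or.inl rfl
    · have h1 : ι ((P * N₀) i j) ≠ 0 := algebraMap_ne_zero h0
      right
      rw [RatFunc.intDegree_mul (inv_ne_zero hιc) (mul_ne_zero (X_zpow_ne_zero _) h1),
        RatFunc.intDegree_mul (X_zpow_ne_zero _) h1, RatFunc.intDegree_inv, intDegree_X_zpow,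
        intDegree_algebraMap, intDegree_algebraMap]
      have := hdeg i j
      simp only [a]
      omega
  · have : Q.det = (ι c)⁻¹ ^ n * ((∏ i, (RatFunc.X : RatFunc k) ^ (-(a i))) * ι (P * N₀).det) := by
      simp only [Q]
      rw [Matrix.det_smul, Matrix.det_mul, Matrix.det_diagonal, Fintype.card_fin,
        ← RingHom.mapMatrix_apply, ← RingHom.map_det]
    rw [this]
    refine mul_ne_zero (pow_ne_zero _ (inv_ne_zero hιc)) (mul_ne_zero ?_ (algebraMap_ne_zero hPN₀det))
    rw [prod_X_zpow]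
    exact X_zpow_ne_zero _
  · have : Q.det = (ι c)⁻¹ ^ n * ((∏ i, (RatFunc.X : RatFunc k) ^ (-(a i))) * ι (P * N₀).det) := by
      simp only [Q]
      rw [Matrix.det_smul, Matrix.det_mul, Matrix.det_diagonal, Fintype.card_fin,
        ← RingHom.mapMatrix_apply, ← RingHom.map_det]
    rw [this, prod_X_zpow, inv_pow, ← map_pow,
      RatFunc.intDegree_mul (inv_ne_zero (algebraMap_ne_zero (pow_ne_zero _ hc)))
        (mul_ne_zero (X_zpow_ne_zero _) (algebraMap_ne_zero hPN₀det)),
      RatFunc.intDegree_mul (X_zpow_ne_zero _) (algebraMap_ne_zero hPN₀det),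
      RatFunc.intDegree_inv, intDegree_X_zpow, intDegree_algebraMap, intDegree_algebraMap, hdetdeg,
      Polynomial.natDegree_pow]
    simp only [a, Finset.sum_neg_distrib, Finset.sum_sub_distrib, Finset.sum_const, Finset.card_univ,
      Fintype.card_fin, nsmul_eq_mul]
    push_cast
    ring
  · ext i j
    rw [Matrix.diagonal_mul, hQentry]
    have h1 : (P.map ι * N) i j = (ι c)⁻¹ * ι ((P * N₀) i j) := by
      have h2 : (P * N₀).map ι = P.map ι * N₀.map ι := Matrix.map_mul
      have h3 : ι ((P * N₀) i j) = ((P * N₀).map ι) i j := rfl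
      rw [h3, h2, hN₀map, Matrix.mul_smul, Matrix.smul_apply, smul_eq_mul, ← mul_assoc,
        inv_mul_cancel₀ hιc, one_mul]
    rw [h1]
    have hX : (RatFunc.X : RatFunc k) ^ a i * RatFunc.X ^ (-(a i)) = 1 := by
      rw [← zpow_add₀ RatFunc.X_ne_zero, add_neg_cancel, zpow_zero]
    calc (ι c)⁻¹ * ι ((P * N₀) i j) = (RatFunc.X ^ a i * RatFunc.X ^ (-(a i))) * ((ι c)⁻¹ * ι ((P * N₀) i j)) := by
          rw [hX, one_mul]
      _ = _ := by ring

end Fermat.Agent.ProgramR.RR
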