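import Fermat.Agent.ProgramR.RR.NormalBasis
set_option autoImplicit false
namespace Fermat.Agent.ProgramR.RR
open Polynomial Matrix

variable {k : Type*} [Field k] {F : Type*} [Field F] [Algebra (RatFunc k) F] {n : ℕ}
variable [Algebra k F] [IsScalarTower k (RatFunc k) F]

local notation "ι" => algebraMap k[X] (RatFunc k)

theorem algebraMap_C_mem_Apoly (c : k) : algebraMap k (RatFunc k) c ∈ Apoly k :=
  ⟨Polynomial.C c, by rw [RatFunc.algebraMap_C]; rfl⟩

theorem algebraMap_C_mem_Ainf (c : k) : algebraMap k (RatFunc k) c ∈ Ainf k := by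
  right
  have : algebraMap k (RatFunc k) c = RatFunc.C c := rfl
  rw [this, RatFunc.intDegree_C]

theorem repr_smul_eq (β : Module.Basis (Fin n) (RatFunc k) F) (c : k) (x : F) (i : Fin n) :
    β.repr (c • x) i = algebraMap k (RatFunc k) c * β.repr x i := by
  rw [← algebraMap_smul (RatFunc k) c x, map_smul, Finsupp.smul_apply, smul_eq_mul]

/-- The `k`-subspace of vectors whose `i`-th coordinate is a polynomial of degree `≤ - e i`. -/
def boundedSubspace (β : Module.Basis (Fin n) (RatFunc k) F) (e : Fin n → ℤ) : Submodule k F where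
  carrier := {x | ∀ i, β.repr x i ∈ Apoly k ∧ (RatFunc.X : RatFunc k) ^ (e i) * β.repr x i ∈ Ainf k}
  add_mem' := by
    intro x y hx hy i
    rw [map_add, Finsupp.add_apply, mul_add]
    exact ⟨(Apoly k).add_mem (hx i).1 (hy i).1, (Ainf k).add_mem (hx i).2 (hy i).2⟩
  zero_mem' := by
    intro i
    rw [map_zero, Finsupp.zero_apply, mul_zero]
    exact ⟨(Apoly k).zero_mem, (Ainf k).zero_mem⟩
  smul_mem' := by
    intro c x hx i
    rw [repr_smul_eq, mul_left_comm]
    exact ⟨(Apoly k).mul_mem (algebraMap_C_mem_Apoly c) (hx i).1,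
      (Ainf k).mul_mem (algebraMap_C_mem_Ainf c) (hx i).2⟩

theorem mem_boundedSubspace {β : Module.Basis (Fin n) (RatFunc k) F} {e : Fin n → ℤ} {x : F} :
    x ∈ boundedSubspace β e ↔
      ∀ i, β.repr x i ∈ Apoly k ∧ (RatFunc.X : RatFunc k) ^ (e i) * β.repr x i ∈ Ainf k := Iff.rfl

/-- polynomial of degree `< (1 - e).toNat` iff `X^e * p` is regular at infinity -/
theorem X_zpow_mul_mem_Ainf_iff (e : ℤ) (p : k[X]) :
    (RatFunc.X : RatFunc k) ^ e * ι p ∈ Ainf k ↔ p ∈ Polynomial.degreeLT k (1 - e).toNat := by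
  rw [Polynomial.mem_degreeLT]
  by_cases hp : p = 0
  · subst hp
    simp only [map_zero, mul_zero, Polynomial.degree_zero]
    exact ⟨fun _ => WithBot.bot_lt_coe _, fun _ => (Ainf k).zero_mem⟩
  · have h1 : (RatFunc.X : RatFunc k) ^ e * ι p ≠ 0 :=
      mul_ne_zero (X_zpow_ne_zero e) (algebraMap_ne_zero hp)
    rw [mem_Ainf_of_ne_zero h1, RatFunc.intDegree_mul (X_zpow_ne_zero e) (algebraMap_ne_zero hp),
      intDegree_X_zpow, intDegree_algebraMap, Polynomial.degree_eq_natDegree hp, Nat.cast_lt]
    omega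

/-- the parametrisation of `boundedSubspace` -/
noncomputable def boundedParam (β : Module.Basis (Fin n) (RatFunc k) F) (m : Fin n → ℕ) :
    (∀ i, Polynomial.degreeLT k (m i)) →ₗ[k] F where
  toFun p := ∑ i, ι (p i : k[X]) • β i
  map_add' p q := by
    rw [← Finset.sum_add_distrib]
    apply Finset.sum_congr rfl
    intro i _
    rw [Pi.add_apply, Submodule.coe_add, map_add, add_smul]
  map_smul' c p := by
    rw [RingHom.id_apply, Finset.smul_sum]
    apply Finset.sum_congr rfl
    intro i _
    rw [Pi.smul_apply, Submodule.coe_smul, ← smul_assoc]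
    congr 1
    rw [Algebra.smul_def c (ι _), Polynomial.smul_eq_C_mul, map_mul]
    congr 1

theorem boundedParam_apply (β : Module.Basis (Fin n) (RatFunc k) F) (m : Fin n → ℕ)
    (p : ∀ i, Polynomial.degreeLT k (m i)) :
    boundedParam β m p = ∑ i, ι (p i : k[X]) • β i := rfl

theorem repr_boundedParam (β : Module.Basis (Fin n) (RatFunc k) F) (m : Fin n → ℕ)
    (p : ∀ i, Polynomial.degreeLT k (m i)) (i : Fin n) :
    β.repr (boundedParam β m p) i = ι (p i : k[X]) := by
  rw [boundedParam_apply, Module.Basis.repr_sum_self]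

theorem boundedParam_injective (β : Module.Basis (Fin n) (RatFunc k) F) (m : Fin n → ℕ) :
    Function.Injective (boundedParam β m) := by
  rw [← LinearMap.ker_eq_bot, LinearMap.ker_eq_bot']
  intro p hp
  funext i
  have := repr_boundedParam β m p i
  rw [hp, map_zero, Finsupp.zero_apply] at this
  apply Subtype.ext
  exact (map_eq_zero_iff _ (RatFunc.algebraMap_injective k)).mp this.symm

theorem range_boundedParam (β : Module.Basis (Fin n) (RatFunc k) F) (e : Fin n → ℤ) :
    LinearMap.range (boundedParam β (fun i => (1 - e i).toNat)) = boundedSubspace β e := by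
  ext x
  constructor
  · rintro ⟨p, rfl⟩ i
    rw [repr_boundedParam]
    exact ⟨algebraMap_mem_Apoly _, (X_zpow_mul_mem_Ainf_iff (e i) _).mpr (p i).2⟩
  · intro hx
    have h1 : ∀ i, ∃ q : k[X], ι q = β.repr x i := fun i => (hx i).1
    choose q hq using h1
    have h2 : ∀ i, q i ∈ Polynomial.degreeLT k (1 - e i).toNat := by
      intro i
      rw [← X_zpow_mul_mem_Ainf_iff, hq]
      exact (hx i).2
    refine ⟨fun i => ⟨q i, h2 i⟩, ?_⟩
    rw [boundedParam_apply]
    simp only [hq]
    exact β.sum_repr x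

/-- **Counting**: the dimension of `boundedSubspace`. -/
theorem finrank_boundedSubspace (β : Module.Basis (Fin n) (RatFunc k) F) (e : Fin n → ℤ) :
    Module.finrank k (boundedSubspace β e) = ∑ i, (1 - e i).toNat := by
  rw [← range_boundedParam, LinearMap.finrank_range_of_inj (boundedParam_injective β _),
    Module.finrank_pi_fintype]
  apply Finset.sum_congr rfl
  intro i _
  rw [(Polynomial.degreeLTEquiv k _).finrank_eq, Module.finrank_fin_fun]

end Fermat.Agent.ProgramR.RR
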