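import Fermat.Agent.ProgramR.RR.RowReduce
set_option autoImplicit false
namespace Fermat.Agent.ProgramR.RR
open Polynomial Matrix

variable {k : Type*} [Field k] {n : ℕ}

theorem coeff_prod_of_natDegree_le_fun {ι : Type*} (s : Finset ι) (f : ι → k[X]) (e : ι → ℕ)
    (h : ∀ i ∈ s, (f i).natDegree ≤ e i) :
    (∏ i ∈ s, f i).natDegree ≤ ∑ i ∈ s, e i ∧
      (∏ i ∈ s, f i).coeff (∑ i ∈ s, e i) = ∏ i ∈ s, (f i).coeff (e i) := by
  classical
  induction s using Finset.induction_on with
  | empty => simp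
  | insert a s ha ih =>
    have h' : ∀ i ∈ s, (f i).natDegree ≤ e i := fun i hi => h i (Finset.mem_insert_of_mem hi)
    obtain ⟨ih1, ih2⟩ := ih h'
    have ha' := h a (Finset.mem_insert_self a s)
    rw [Finset.prod_insert ha, Finset.sum_insert ha, Finset.prod_insert ha]
    refine ⟨?_, ?_⟩
    · exact (natDegree_mul_le).trans (add_le_add ha' ih1)
    · rw [Polynomial.coeff_mul_add_eq_of_natDegree_le ha' ih1, ih2]

/-- The top coefficient of the determinant of a polynomial matrix with bounded row degrees. -/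
theorem det_natDegree_le_and_coeff (M : Matrix (Fin n) (Fin n) k[X]) (d : Fin n → ℕ)
    (hd : ∀ i j, (M i j).natDegree ≤ d i) :
    M.det.natDegree ≤ ∑ i, d i ∧ M.det.coeff (∑ i, d i) = (leadMat M d).det := by
  have key : ∀ σ : Equiv.Perm (Fin n),
      (∏ i, M (σ i) i).natDegree ≤ ∑ i, d i ∧
        (∏ i, M (σ i) i).coeff (∑ i, d i) = ∏ i, (M (σ i) i).coeff (d (σ i)) := by
    intro σ
    have hsum : ∑ i, d (σ i) = ∑ i, d i := Equiv.sum_comp σ d
    have := coeff_prod_of_natDegree_le_fun Finset.univ (fun i => M (σ i) i) (fun i => d (σ i))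
      (fun i _ => hd (σ i) i)
    rw [hsum] at this
    exact this
  refine ⟨?_, ?_⟩
  · rw [Matrix.det_apply]
    apply Polynomial.natDegree_sum_le_of_forall_le
    intro σ _
    refine (Polynomial.natDegree_smul_le _ _).trans (key σ).1
  · rw [Matrix.det_apply, Matrix.det_apply, Polynomial.finsetSum_coeff]
    apply Finset.sum_congr rfl
    intro σ _
    rw [Units.smul_def, Units.smul_def, zsmul_eq_mul, zsmul_eq_mul, ← Polynomial.C_eq_intCast,
      Polynomial.coeff_C_mul, (key σ).2]
    rfl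

theorem det_natDegree_eq_of_leadMat (M : Matrix (Fin n) (Fin n) k[X]) (d : Fin n → ℕ)
    (hd : ∀ i j, (M i j).natDegree ≤ d i) (hL : (leadMat M d).det ≠ 0) :
    M.det.natDegree = ∑ i, d i := by
  obtain ⟨h1, h2⟩ := det_natDegree_le_and_coeff M d hd
  apply le_antisymm h1
  apply Polynomial.le_natDegree_of_ne_zero
  rw [h2]
  exact hL

end Fermat.Agent.ProgramR.RR
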