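import Fermat.Agent.ProgramR.RR.Lattice
set_option autoImplicit false
namespace Fermat.Agent.ProgramR.RR
open Polynomial Matrix

variable {k : Type*} [Field k] {F : Type*} [Field F] [Algebra (RatFunc k) F] {n : ℕ}

local notation "ι" => algebraMap k[X] (RatFunc k)

/-- A basis obtained from a basis by an invertible matrix. -/
theorem exists_basis_of_matrix (u : Module.Basis (Fin n) (RatFunc k) F)
    (T T' : Matrix (Fin n) (Fin n) (RatFunc k)) (hTT' : T * T' = 1) (hT'T : T' * T = 1) :
    ∃ b : Module.Basis (Fin n) (RatFunc k) F, ∀ i, b i = ∑ j, T i j • u j := by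
  have h1 : Tᵀ * T'ᵀ = 1 := by rw [← Matrix.transpose_mul, hT'T, Matrix.transpose_one]
  have h2 : T'ᵀ * Tᵀ = 1 := by rw [← Matrix.transpose_mul, hTT', Matrix.transpose_one]
  refine ⟨u.map (Matrix.toLinOfInv u u h1 h2), fun i => ?_⟩
  rw [Module.Basis.map_apply]
  show Matrix.toLin u u Tᵀ (u i) = _
  rw [Matrix.toLin_self]
  rfl

/-- entries of the inverse of a matrix over `Ainf` with unit determinant -/
theorem inv_mem_Ainf_of_det (Q : Matrix (Fin n) (Fin n) (RatFunc k)) (hQ : ∀ i j, Q i j ∈ Ainf k)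
    (hdeg : Q.det.intDegree = 0) : ∀ i j, Q⁻¹ i j ∈ Ainf k := by
  intro i j
  let Qs : Matrix (Fin n) (Fin n) (Ainf k) := fun i j => ⟨Q i j, hQ i j⟩
  have hQs : Q = (Ainf k).subtype.mapMatrix Qs := by
    ext i j; rfl
  have hadj : Q.adjugate = (Ainf k).subtype.mapMatrix Qs.adjugate := by
    rw [hQs, RingHom.map_adjugate]
  rw [Matrix.inv_def, Matrix.smul_apply, smul_eq_mul, Ring.inverse_eq_inv']
  apply (Ainf k).mul_mem (inv_mem_Ainf hdeg)
  rw [hadj]
  exact (Qs.adjugate i j).2

theorem intDegree_algebraMap_of_isUnit {p : k[X]} (hp : IsUnit p) : (ι p).intDegree = 0 := by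
  rw [intDegree_algebraMap, Polynomial.natDegree_eq_zero_of_isUnit hp]
  rfl

theorem intDegree_sq_mul {x y : RatFunc k} (hx : x ≠ 0) (hy : y ≠ 0) :
    (x ^ 2 * y).intDegree = 2 * x.intDegree + y.intDegree := by
  rw [RatFunc.intDegree_mul (pow_ne_zero _ hx) hy, pow_two, RatFunc.intDegree_mul hx hx]
  ring

variable [FiniteDimensional (RatFunc k) F] [Algebra.IsSeparable (RatFunc k) F]

/-- **Dedekind–Weber normal bases**. -/
theorem exists_normal_basis (u v : Module.Basis (Fin n) (RatFunc k) F) :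
    ∃ (b : Module.Basis (Fin n) (RatFunc k) F) (a : Fin n → ℤ),
      Latt (Apoly k) b = Latt (Apoly k) u ∧
      Latt (Ainf k) (b.isUnitSMul (fun i => (isUnit_iff_ne_zero.mpr (X_zpow_ne_zero (k := k) (-(a i))))))
        = Latt (Ainf k) v ∧
      (Algebra.discr (RatFunc k) u).intDegree - (Algebra.discr (RatFunc k) v).intDegree
        = 2 * ∑ i, a i := by
  classical
  -- the transition matrix
  let N : Matrix (Fin n) (Fin n) (RatFunc k) := fun i j => v.repr (u i) j
  have hNdet : N.det ≠ 0 := by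
    have h1 : N = (v.toMatrix u)ᵀ := by ext i j; rfl
    rw [h1, Matrix.det_transpose]
    have h2 : v.toMatrix u * u.toMatrix v = 1 := Module.Basis.toMatrix_mul_toMatrix_flip v u
    intro h0
    have := congrArg Matrix.det h2
    rw [Matrix.det_mul, h0, zero_mul, Matrix.det_one] at this
    exact zero_ne_one this
  obtain ⟨P, a, Q, hP, hQ, hQdet, hQdeg, hfac⟩ := exists_birkhoff N hNdet
  have hPι : (P.map ι) * (P⁻¹.map ι) = 1 := by
    rw [← Matrix.map_mul, Matrix.mul_nonsing_inv _ hP, Matrix.map_one _ (map_zero _) (map_one _)]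
  have hPι' : (P⁻¹.map ι) * (P.map ι) = 1 := by
    rw [← Matrix.map_mul, Matrix.nonsing_inv_mul _ hP, Matrix.map_one _ (map_zero _) (map_one _)]
  obtain ⟨b, hb⟩ := exists_basis_of_matrix u (P.map ι) (P⁻¹.map ι) hPι hPι'
  have hu : ∀ j, u j = ∑ l, N j l • v l := fun j => (v.sum_repr (u j)).symm
  have hbv : ∀ i, b i = ∑ l, ((RatFunc.X : RatFunc k) ^ a i * Q i l) • v l := by
    intro i
    rw [hb]
    have h1 : ∀ l, (RatFunc.X : RatFunc k) ^ a i * Q i l = ∑ j, (P.map ι) i j * N j l := by
      intro l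
      have := congrFun (congrFun hfac i) l
      rw [Matrix.diagonal_mul] at this
      rw [← this, Matrix.mul_apply]
    simp_rw [h1, hu, Finset.smul_sum, Finset.sum_smul, smul_smul]
    rw [Finset.sum_comm]
  let v' := b.isUnitSMul (fun i => (isUnit_iff_ne_zero.mpr (X_zpow_ne_zero (k := k) (-(a i)))))
  have hv'apply : ∀ i, v' i = (RatFunc.X : RatFunc k) ^ (-(a i)) • b i := fun i =>
    Module.Basis.isUnitSMul_apply _ i
  have hv' : ∀ i, v' i = ∑ l, Q i l • v l := by
    intro i
    rw [hv'apply, hbv, Finset.smul_sum]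
    apply Finset.sum_congr rfl
    intro l _
    rw [smul_smul, ← mul_assoc, ← zpow_add₀ RatFunc.X_ne_zero, neg_add_cancel, zpow_zero, one_mul]
  refine ⟨b, a, ?_, ?_, ?_⟩
  · apply latt_eq_of_matrix (Apoly k) u b (P.map ι) (P⁻¹.map ι) hb _ _ hPι
    · intro i j; exact algebraMap_mem_Apoly _
    · intro i j; exact algebraMap_mem_Apoly _
  · apply latt_eq_of_matrix (Ainf k) v v' Q Q⁻¹ hv' hQ (inv_mem_Ainf_of_det Q hQ hQdeg)
    exact Matrix.mul_nonsing_inv _ (isUnit_iff_ne_zero.mpr hQdet)
  · -- discriminants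
    have hdu : Algebra.discr (RatFunc k) u ≠ 0 := Algebra.discr_not_zero_of_basis _ u
    have hdv : Algebra.discr (RatFunc k) v ≠ 0 := Algebra.discr_not_zero_of_basis _ v
    have hdb : Algebra.discr (RatFunc k) b ≠ 0 := Algebra.discr_not_zero_of_basis _ b
    have e1 : Algebra.discr (RatFunc k) b = (P.map ι).det ^ 2 * Algebra.discr (RatFunc k) u := by
      rw [← Algebra.discr_of_matrix_mulVec]
      congr 1
      funext i
      rw [hb, Matrix.mulVec, dotProduct]
      apply Finset.sum_congr rfl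
      intro j _
      rw [Algebra.smul_def]
      rfl
    have e2 : Algebra.discr (RatFunc k) v' = Q.det ^ 2 * Algebra.discr (RatFunc k) v := by
      rw [← Algebra.discr_of_matrix_mulVec]
      congr 1
      funext i
      rw [hv', Matrix.mulVec, dotProduct]
      apply Finset.sum_congr rfl
      intro j _
      rw [Matrix.map_apply, Algebra.smul_def]
    have e3 : Algebra.discr (RatFunc k) v' =
        (Matrix.diagonal (fun i => (RatFunc.X : RatFunc k) ^ (-(a i)))).det ^ 2
          * Algebra.discr (RatFunc k) b := by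
      rw [← Algebra.discr_of_matrix_mulVec]
      congr 1
      funext i
      rw [hv'apply, Matrix.mulVec, dotProduct, Finset.sum_eq_single i]
      · rw [Matrix.map_apply, Matrix.diagonal_apply_eq, Algebra.smul_def]
      · intro j _ hji
        rw [Matrix.map_apply, Matrix.diagonal_apply_ne _ hji.symm, map_zero, zero_mul]
      · intro h; exact absurd (Finset.mem_univ i) h
    have hPdet : (P.map ι).det ≠ 0 ∧ (P.map ι).det.intDegree = 0 := by
      rw [← RingHom.mapMatrix_apply, ← RingHom.map_det]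
      exact ⟨algebraMap_ne_zero hP.ne_zero, intDegree_algebraMap_of_isUnit hP⟩
    have hDdet : (Matrix.diagonal (fun i => (RatFunc.X : RatFunc k) ^ (-(a i)))).det
        = RatFunc.X ^ (∑ i, -(a i)) := by
      rw [Matrix.det_diagonal, prod_X_zpow]
    have i1 := congrArg RatFunc.intDegree e1
    have i2 := congrArg RatFunc.intDegree e2
    have i3 := congrArg RatFunc.intDegree e3
    rw [intDegree_sq_mul hPdet.1 hdu, hPdet.2] at i1
    rw [intDegree_sq_mul hQdet hdv, hQdeg] at i2
    rw [hDdet, intDegree_sq_mul (X_zpow_ne_zero _) hdb, intDegree_X_zpow, Finset.sum_neg_distrib] at i3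
    omega

end Fermat.Agent.ProgramR.RR
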