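import Mathlib
set_option autoImplicit false
namespace Fermat.Agent.ProgramR.RR
open Polynomial Matrix

variable {k : Type*} [Field k] {n : ℕ}

/-- leading coefficient matrix with respect to the row degree bounds `d` -/
def leadMat (M : Matrix (Fin n) (Fin n) k[X]) (d : Fin n → ℕ) : Matrix (Fin n) (Fin n) k :=
  Matrix.of fun i j => (M i j).coeff (d i)

theorem natDegree_le_pred_of_coeff_eq_zero {p : k[X]} {m : ℕ} (h : p.natDegree ≤ m)
    (hc : p.coeff m = 0) : p.natDegree ≤ m - 1 := by
  rw [Polynomial.natDegree_le_iff_coeff_eq_zero]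
  intro N hN
  by_cases hNm : N = m
  · rw [hNm]; exact hc
  · apply Polynomial.coeff_eq_zero_of_natDegree_lt
    omega

theorem eq_zero_of_natDegree_le_zero_of_coeff {p : k[X]} (h : p.natDegree ≤ 0)
    (hc : p.coeff 0 = 0) : p = 0 := by
  rw [Polynomial.eq_C_of_natDegree_le_zero h, hc, map_zero]

theorem exists_rowReduced_aux : ∀ (s : ℕ) (M : Matrix (Fin n) (Fin n) k[X]) (d : Fin n → ℕ),
    M.det ≠ 0 → (∀ i j, (M i j).natDegree ≤ d i) → ∑ i, d i = s →
    ∃ (P : Matrix (Fin n) (Fin n) k[X]) (d' : Fin n → ℕ), IsUnit P.det ∧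
      (∀ i j, ((P * M) i j).natDegree ≤ d' i) ∧ (leadMat (P * M) d').det ≠ 0 := by
  intro s
  induction s using Nat.strong_induction_on with
  | _ s ih =>
  intro M d hM hd hs
  classical
  by_cases hL : (leadMat M d).det ≠ 0
  · exact ⟨1, d, by simp, by simpa using hd, by simpa using hL⟩
  · rw [not_not] at hL
    obtain ⟨lam, hlam0, hlam⟩ := Matrix.exists_vecMul_eq_zero_iff.mpr hL
    obtain ⟨i₁, hi₁⟩ : ∃ i, lam i ≠ 0 := by
      by_contra hcon
      exact hlam0 (funext fun i => not_not.mp (not_exists.mp hcon i))
    obtain ⟨i₀, hi₀mem, hi₀max⟩ := Finset.exists_max_image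
      (Finset.univ.filter (fun i => lam i ≠ 0)) d ⟨i₁, by simp [hi₁]⟩
    have hlam_i₀ : lam i₀ ≠ 0 := by simpa using hi₀mem
    have hmax : ∀ i, lam i ≠ 0 → d i ≤ d i₀ := fun i hi => hi₀max i (by simp [hi])
    let c : Fin n → k[X] := fun i => C (lam i) * X ^ (d i₀ - d i)
    let P : Matrix (Fin n) (Fin n) k[X] := (1 : Matrix (Fin n) (Fin n) k[X]).updateRow i₀ c
    have hPdet : P.det = C (lam i₀) := by
      have h1 : (∑ i, c i • (1 : Matrix (Fin n) (Fin n) k[X]) i) = c := by
        funext j
        simp [Finset.sum_apply, Matrix.one_apply, Finset.sum_ite_eq']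
      have := Matrix.det_updateRow_sum (1 : Matrix (Fin n) (Fin n) k[X]) i₀ c
      rw [h1] at this
      rw [this]
      simp [c]
    have hPunit : IsUnit P.det := by
      rw [hPdet]
      exact (isUnit_iff_ne_zero.mpr hlam_i₀).map C
    have hPM : P * M = M.updateRow i₀ (c ᵥ* M) := by
      rw [Matrix.updateRow_mul, Matrix.one_mul]
    -- the new row
    have hrow_deg : ∀ j, ((c ᵥ* M) j).natDegree ≤ d i₀ := by
      intro j
      rw [Matrix.vecMul, dotProduct]
      apply Polynomial.natDegree_sum_le_of_forall_le
      intro i _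
      by_cases hi : lam i = 0
      · simp [c, hi]
      · calc (c i * M i j).natDegree ≤ (c i).natDegree + (M i j).natDegree := natDegree_mul_le
          _ ≤ (d i₀ - d i) + d i := by
              apply add_le_add _ (hd i j)
              calc (c i).natDegree ≤ (C (lam i)).natDegree + (X ^ (d i₀ - d i) : k[X]).natDegree :=
                    natDegree_mul_le
                _ ≤ 0 + (d i₀ - d i) := by
                    apply add_le_add
                    · simp
                    · exact natDegree_X_pow_le _
                _ = d i₀ - d i := zero_add _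
          _ = d i₀ := Nat.sub_add_cancel (hmax i hi)
    have hrow_coeff : ∀ j, ((c ᵥ* M) j).coeff (d i₀) = 0 := by
      intro j
      have h2 := congrFun hlam j
      rw [Matrix.vecMul, dotProduct] at h2 ⊢
      rw [Polynomial.finsetSum_coeff]
      rw [Pi.zero_apply] at h2
      rw [← h2]
      apply Finset.sum_congr rfl
      intro i _
      by_cases hi : lam i = 0
      · simp [c, hi]
      · have hle := hmax i hi
        simp only [c, leadMat, Matrix.of_apply]
        rw [mul_assoc, Polynomial.coeff_C_mul, Polynomial.coeff_X_pow_mul',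
          if_pos (Nat.sub_le _ _), Nat.sub_sub_self hle]
    have hdetPM : (P * M).det ≠ 0 := by
      rw [Matrix.det_mul, hPdet]
      exact mul_ne_zero (by simpa using hlam_i₀) hM
    by_cases hd0 : d i₀ = 0
    · exfalso
      apply hdetPM
      rw [hPM]
      apply Matrix.det_eq_zero_of_row_eq_zero i₀
      intro j
      rw [Matrix.updateRow_self]
      apply eq_zero_of_natDegree_le_zero_of_coeff
      · have := hrow_deg j; rwa [hd0] at this
      · have := hrow_coeff j; rwa [hd0] at this
    · let d' : Fin n → ℕ := Function.update d i₀ (d i₀ - 1)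
      have hd' : ∀ i j, ((P * M) i j).natDegree ≤ d' i := by
        intro i j
        rw [hPM]
        by_cases hi : i = i₀
        · subst hi
          rw [Matrix.updateRow_self]
          simp only [d', Function.update_self]
          exact natDegree_le_pred_of_coeff_eq_zero (hrow_deg j) (hrow_coeff j)
        · rw [Matrix.updateRow_ne hi]
          simp only [d', Function.update_of_ne hi]
          exact hd i j
      have hs' : ∑ i, d' i < s := by
        rw [← hs]
        apply Finset.sum_lt_sum
        · intro i _
          by_cases hi : i = i₀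
          · subst hi; simp [d']
          · simp [d', Function.update_of_ne hi]
        · exact ⟨i₀, Finset.mem_univ _, by simp only [d', Function.update_self]; omega⟩
      obtain ⟨P', d'', hP', hdeg, hlead⟩ := ih _ hs' (P * M) d' hdetPM hd' rfl
      refine ⟨P' * P, d'', ?_, ?_, ?_⟩
      · rw [Matrix.det_mul]; exact hP'.mul hPunit
      · rw [Matrix.mul_assoc]; exact hdeg
      · rw [Matrix.mul_assoc]; exact hlead

/-- **Row reduction** of a nonsingular polynomial matrix. -/
theorem exists_rowReduced (M : Matrix (Fin n) (Fin n) k[X]) (hM : M.det ≠ 0) :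
    ∃ (P : Matrix (Fin n) (Fin n) k[X]) (d : Fin n → ℕ), IsUnit P.det ∧
      (∀ i j, ((P * M) i j).natDegree ≤ d i) ∧ (leadMat (P * M) d).det ≠ 0 :=
  exists_rowReduced_aux _ M (fun i => Finset.univ.sup fun j => (M i j).natDegree) hM
    (fun i j => Finset.le_sup (f := fun j => (M i j).natDegree) (Finset.mem_univ j)) rfl

end Fermat.Agent.ProgramR.RR
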